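import Fermat.Agent.Joint.Main
import Fermat.Agent.Voronin.Bagchi

/-!
# Zeros of combinations of `L`-functions, and of the Hurwitz zeta function at a rational

Two non-zero coefficients suffice for a combination of universal functions to approximate
`s - s₀`, so it has a zero near `s₀ + 3/4 + it` for a set of heights of positive lower density.
The Hurwitz zeta function at `b / q`, `b` prime to `q ≥ 3`, is `q^s` times such a combination.
-/

set_option autoImplicit false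

noncomputable section

namespace FA.Joint

open Finset Filter Complex MeasureTheory
open DirichletCharacter (LFunction)
open HurwitzZeta (hurwitzZeta)
open scoped Topology Real

variable {q : ℕ} [NeZero q]

/-- `∑ c χ L (s, χ)`. -/
def charComb (c : DirichletCharacter ℂ q → ℂ) (s : ℂ) : ℂ :=
  ∑ χ : DirichletCharacter ℂ q, c χ * LFunction χ s

/-- The distinct zeros of `∑ c χ L (s, χ)` with `σ₁ < re s < σ₂` and `0 < im s ≤ T`. -/
def combZeros (c : DirichletCharacter ℂ q → ℂ) (σ₁ σ₂ T : ℝ) : Set ℂ :=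
  {s | σ₁ < s.re ∧ s.re < σ₂ ∧ 0 < s.im ∧ s.im ≤ T ∧ charComb c s = 0}

theorem differentiableAt_charComb (c : DirichletCharacter ℂ q → ℂ) {s : ℂ} (hs : s ≠ 1) :
    DifferentiableAt ℂ (charComb c) s :=
  DifferentiableAt.fun_sum fun χ _ =>
    (DirichletCharacter.differentiableAt_LFunction χ s (Or.inl hs)).const_mul _

theorem finite_combZeros {c : DirichletCharacter ℂ q → ℂ} (hc : ∃ s ≠ 1, charComb c s ≠ 0)
    {σ₁ σ₂ : ℝ} (hσ : σ₂ < 1) (T : ℝ) : (combZeros c σ₁ σ₂ T).Finite := by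
  by_contra hinf
  obtain ⟨K, hK⟩ : ∃ K : Set ℂ, K = Set.Icc σ₁ σ₂ ×ℂ Set.Icc 0 T := ⟨_, rfl⟩
  obtain ⟨x, hx, hacc⟩ := Set.Infinite.exists_accPt_of_subset_isCompact hinf
    (hK ▸ isCompact_Icc.reProdIm isCompact_Icc) fun s hs => by
      rw [hK, Complex.mem_reProdIm]
      exact ⟨⟨hs.1.le, hs.2.1.le⟩, hs.2.2.1.le, hs.2.2.2.1⟩
  have hx1 : x ∈ ({1}ᶜ : Set ℂ) := fun h => by
    rw [hK, Complex.mem_reProdIm] at hx
    rw [Set.mem_singleton_iff.1 h] at hx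
    simp at hx
    linarith [hx.1.2]
  have han : AnalyticOnNhd ℂ (charComb c) ({1}ᶜ : Set ℂ) :=
    DifferentiableOn.analyticOnNhd (fun _ hz =>
      (differentiableAt_charComb c hz).differentiableWithinAt) isOpen_compl_singleton
  have heq := han.eqOn_of_preconnected_of_frequently_eq
    (g := fun _ => 0) analyticOnNhd_const
    (isConnected_compl_singleton_of_one_lt_rank (by simp) 1).isPreconnected hx1
    ((accPt_iff_frequently_nhdsNE.1 hacc).mono fun y hy => hy.2.2.2.2)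
  obtain ⟨s, hs, hne⟩ := hc
  exact hne (heq hs)

/-- Non-vanishing entire targets with combination `s - s₀`. -/
theorem exists_targets {c : DirichletCharacter ℂ q → ℂ} {χ₁ χ₂ : DirichletCharacter ℂ q}
    (h12 : χ₁ ≠ χ₂) (h1 : c χ₁ ≠ 0) (h2 : c χ₂ ≠ 0) (s₀ : ℂ) (r : ℝ) :
    ∃ f : DirichletCharacter ℂ q → ℂ → ℂ, (∀ χ, Differentiable ℂ (f χ)) ∧
      (∀ χ, ∀ s ∈ Metric.closedBall (0 : ℂ) r, f χ s ≠ 0) ∧
        ∀ s, ∑ χ, c χ * f χ s = s - s₀ := by
  classical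
  obtain ⟨W, hW⟩ : ∃ W, W = (univ.erase χ₁).filter fun χ => c χ ≠ 0 := ⟨_, rfl⟩
  have hmem : χ₂ ∈ W := hW ▸ mem_filter.2 ⟨mem_erase.2 ⟨h12.symm, mem_univ _⟩, h2⟩
  have hW0 : (W.card : ℂ) ≠ 0 := Nat.cast_ne_zero.2 (card_pos.2 ⟨χ₂, hmem⟩).ne'
  obtain ⟨A, hA⟩ : ∃ A : ℝ, A = |r| + ‖s₀‖ + 1 := ⟨_, rfl⟩
  have hA0 : 0 < A := hA ▸ by positivity
  have hA0' : (A : ℂ) ≠ 0 := Complex.ofReal_ne_zero.2 hA0.ne'
  obtain ⟨f, hf⟩ : ∃ f : DirichletCharacter ℂ q → ℂ → ℂ, f = fun χ s =>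
      if χ = χ₁ then ((A : ℂ) + (s - s₀)) / c χ
      else if c χ = 0 then 1 else -(A : ℂ) / (W.card * c χ) := ⟨_, rfl⟩
  refine ⟨f, fun χ => ?_, fun χ s hs => ?_, fun s => ?_⟩
  · rw [hf]
    simp only
    split_ifs <;> fun_prop
  · rw [hf]
    simp only
    split_ifs with e e'
    · rw [e]
      refine div_ne_zero (fun h => ?_) h1
      rw [Metric.mem_closedBall, dist_zero_right] at hs
      have : (A : ℂ) = s₀ - s := by linear_combination h
      have h' := congrArg norm this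
      rw [Complex.norm_real, Real.norm_of_nonneg hA0.le] at h'
      linarith [norm_sub_le s₀ s, le_abs_self r]
    · exact one_ne_zero
    · exact div_ne_zero (neg_ne_zero.2 hA0') (mul_ne_zero hW0 e')
  · rw [← add_sum_erase _ _ (mem_univ χ₁), ← sum_filter_of_ne (p := fun χ => c χ ≠ 0)
      fun χ _ hne h0 => hne (by rw [h0, zero_mul]), ← hW]
    rw [sum_congr rfl (g := fun _ => -(A : ℂ) / W.card) fun χ hχ => ?_, sum_const, nsmul_eq_mul]
    · rw [hf]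
      simp only [if_true]
      field_simp
      ring
    · rw [hW, mem_filter, mem_erase] at hχ
      rw [hf]
      simp only [hχ.1.1, hχ.2, if_false]
      rw [mul_div_assoc', mul_comm (W.card : ℂ), mul_div_mul_left _ _ hχ.2]

/-- **The count of zeros of a combination.** -/
theorem exists_combZeros_ge {c : DirichletCharacter ℂ q → ℂ} {χ₁ χ₂ : DirichletCharacter ℂ q}
    (h12 : χ₁ ≠ χ₂) (h1 : c χ₁ ≠ 0) (h2 : c χ₂ ≠ 0) {σ₁ σ₂ : ℝ} (hσ₁ : 1 / 2 < σ₁)
    (hσ : σ₁ < σ₂) (hσ₂ : σ₂ < 1) :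
    ∃ C : ℝ, 0 < C ∧ ∀ᶠ T : ℝ in atTop, C * T ≤ (combZeros c σ₁ σ₂ T).ncard := by
  obtain ⟨σ, hσd⟩ : ∃ σ, σ = (σ₁ + σ₂) / 2 := ⟨_, rfl⟩
  obtain ⟨δ, hδd⟩ : ∃ δ, δ = (σ₂ - σ₁) / 4 := ⟨_, rfl⟩
  obtain ⟨r, hrd⟩ : ∃ r, r = |σ - 3 / 4| + δ := ⟨_, rfl⟩
  have hδ : 0 < δ := hδd ▸ by linarith
  have hr4 : r < 1 / 4 := by
    have : |σ - 3 / 4| < 1 / 4 - δ := by
      rw [abs_lt]; constructor <;> linarith
    linarith
  have hr : 0 < r := by linarith [abs_nonneg (σ - 3 / 4)]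
  obtain ⟨s₀, hs₀⟩ : ∃ s₀ : ℂ, s₀ = ((σ - 3 / 4 : ℝ) : ℂ) := ⟨_, rfl⟩
  have hin : ∀ z ∈ Metric.closedBall s₀ δ, ‖z‖ ≤ r := fun z hz => by
    rw [Metric.mem_closedBall, dist_eq_norm] at hz
    have : ‖s₀‖ = |σ - 3 / 4| := by rw [hs₀, Complex.norm_real, Real.norm_eq_abs]
    linarith [norm_le_norm_add_norm_sub' z s₀]
  obtain ⟨f, hfd, hf0, hsum⟩ := exists_targets h12 h1 h2 s₀ r
  obtain ⟨N, hN⟩ : ∃ N, N = ∑ χ, ‖c χ‖ := ⟨_, rfl⟩
  have hN0 : 0 ≤ N := hN ▸ sum_nonneg fun χ _ => norm_nonneg _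
  obtain ⟨η, hη⟩ : ∃ η, η = δ / (4 * (N + 1)) := ⟨_, rfl⟩
  have hη0 : 0 < η := hη ▸ by positivity
  obtain ⟨C, hC, hev⟩ := exists_L_universal_density hr hr4
    (fun χ => (hfd χ).continuous.continuousOn) (fun χ => (hfd χ).differentiableOn) hf0 hη0 (δ + 1)
  have hne1 : ∀ (t : ℝ) (z : ℂ), ‖z‖ ≤ r → z + (3 / 4 + t * I) ≠ 1 := fun t z hz h => by
    have h' := congrArg Complex.re h
    simp at h'
    linarith [(abs_le.1 ((Complex.abs_re_le_norm z).trans hz)).2]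
  have hnear : ∀ (t : ℝ), (∀ (χ : DirichletCharacter ℂ q) (s : ℂ), ‖s‖ ≤ r →
      ‖LFunction χ (s + 3 / 4 + t * I) - f χ s‖ < η) → ∀ z ∈ Metric.closedBall s₀ δ,
        ‖charComb c (z + (3 / 4 + t * I)) - (z - s₀)‖ < δ / 2 := by
    intro t ht z hz
    rw [← hsum, charComb, ← sum_sub_distrib]
    refine (norm_sum_le_of_le _ (n := fun χ => ‖c χ‖ * η) fun χ _ => ?_).trans_lt ?_
    · rw [← mul_sub, norm_mul, ← add_assoc]
      exact mul_le_mul_of_nonneg_left (ht χ z (hin z hz)).le (norm_nonneg _)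
    · rw [← sum_mul, ← hN, hη, mul_div_assoc', div_lt_iff₀ (by positivity)]
      nlinarith [mul_nonneg hδ.le hN0]
  obtain ⟨T₁, hT₁, hT₁0⟩ := (hev.and (eventually_gt_atTop (0 : ℝ))).exists
  obtain ⟨t₁, -, ht₁⟩ := nonempty_of_measureReal_ne_zero
    (lt_of_lt_of_le (mul_pos hC hT₁0) hT₁).ne'
  have hnz : ∃ s ≠ 1, charComb c s ≠ 0 := by
    have hz : s₀ + δ ∈ Metric.closedBall s₀ δ := by
      simp [abs_of_pos hδ]
    refine ⟨s₀ + δ + (3 / 4 + t₁ * I), hne1 t₁ _ (hin _ hz), fun h => ?_⟩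
    have h' := hnear t₁ ht₁ _ hz
    rw [h, zero_sub, norm_neg, add_sub_cancel_left, Complex.norm_real,
      Real.norm_of_nonneg hδ.le] at h'
    linarith
  refine ⟨C / (4 * δ), by positivity, ?_⟩
  filter_upwards [(tendsto_atTop_add_const_right atTop (-δ) tendsto_id).eventually hev,
    eventually_ge_atTop (2 * δ)] with T hT hTδ
  simp only [id_eq] at hT
  obtain ⟨S, hS⟩ : ∃ S : Finset ℂ, S = (finite_combZeros hnz hσ₂ T (σ₁ := σ₁)).toFinset :=
    ⟨_, rfl⟩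
  have hcard : ((combZeros c σ₁ σ₂ T).ncard : ℝ) = S.card := by
    rw [hS, Set.ncard_eq_toFinset_card _ (finite_combZeros hnz hσ₂ T)]
  have hsub : {t ∈ Set.Icc (δ + 1) (T + -δ) | ∀ (χ : DirichletCharacter ℂ q) (s : ℂ), ‖s‖ ≤ r →
      ‖LFunction χ (s + 3 / 4 + t * I) - f χ s‖ < η} ⊆
      ⋃ ρ ∈ S, Set.Icc (ρ.im - δ) (ρ.im + δ) := by
    rintro t ⟨⟨ht1, ht2⟩, ht⟩
    obtain ⟨z, hz, hz0⟩ := FA.Voronin.exists_zero_of_near hδ (g := fun z => z - s₀) (m := δ)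
      (G := fun z => charComb c (z + (3 / 4 + t * I)))
      (fun z hz => (DifferentiableAt.comp z (differentiableAt_charComb c (hne1 t z (hin z hz)))
        (differentiableAt_id.add_const _)).differentiableWithinAt)
      (sub_self _) (fun z hz => by
        rw [Metric.mem_sphere, dist_eq_norm] at hz
        exact hz.ge) (hnear t ht)
    rw [Metric.mem_closedBall, dist_eq_norm] at hz
    have hzr := abs_le.1 ((Complex.abs_re_le_norm (z - s₀)).trans hz)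
    have hzi := abs_le.1 ((Complex.abs_im_le_norm (z - s₀)).trans hz)
    simp [hs₀] at hzr hzi
    refine Set.mem_biUnion (x := z + (3 / 4 + t * I)) ?_ ?_
    · rw [hS]
      simp only [Set.Finite.coe_toFinset, combZeros, Set.mem_ofPred_eq, Complex.add_re,
        Complex.add_im]
      refine ⟨?_, ?_, ?_, ?_, hz0⟩ <;> simp <;> linarith
    · simp
      constructor <;> linarith
  have h := hT.trans ((measureReal_mono hsub ((S.finite_toSet.isCompact_biUnion fun ρ _ =>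
    isCompact_Icc).measure_lt_top.ne)).trans (measureReal_biUnion_finset_le _ _))
  rw [Finset.sum_congr rfl (g := fun _ => 2 * δ) fun ρ _ => by
    rw [Real.volume_real_Icc_of_le (by linarith)]; ring, Finset.sum_const, nsmul_eq_mul] at h
  rw [hcard, div_mul_eq_mul_div, div_le_iff₀ (by positivity)]
  nlinarith

/-- The Hurwitz zeta function at a class prime to `q` as a combination. -/
theorem hurwitzZeta_eq_charComb {a : ZMod q} (ha : IsUnit a) (s : ℂ) :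
    hurwitzZeta (ZMod.toAddCircle a) s =
      (q : ℂ) ^ s / q.totient * charComb (fun χ => χ a⁻¹) s := by
  classical
  have hq : (q : ℂ) ^ s ≠ 0 := fun h =>
    NeZero.ne q (Nat.cast_eq_zero.1 (Complex.cpow_eq_zero_iff (q : ℂ) s |>.1 h).1)
  have htot : (q.totient : ℂ) ≠ 0 :=
    Nat.cast_ne_zero.2 (Nat.totient_pos.2 (NeZero.pos q)).ne'
  simp only [charComb, LFunction, ZMod.LFunction, Complex.cpow_neg, mul_sum]
  rw [sum_comm, sum_eq_single a (fun j _ hj => ?_) fun h => absurd (mem_univ a) h]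
  · have h := DirichletCharacter.sum_char_inv_mul_char_eq ℂ ha a
    rw [if_pos rfl] at h
    calc hurwitzZeta (ZMod.toAddCircle a) s
        = (q : ℂ) ^ s / q.totient * (q.totient * ((q : ℂ) ^ s)⁻¹) *
            hurwitzZeta (ZMod.toAddCircle a) s := by field_simp
      _ = _ := by
        rw [← h, sum_mul, mul_sum, sum_mul]
        exact sum_congr rfl fun χ _ => by ring
  · have h := DirichletCharacter.sum_char_inv_mul_char_eq ℂ ha j
    rw [if_neg (Ne.symm hj)] at h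
    calc _ = (q : ℂ) ^ s / q.totient * ((q : ℂ) ^ s)⁻¹ * hurwitzZeta (ZMod.toAddCircle j) s *
          ∑ χ : DirichletCharacter ℂ q, χ a⁻¹ * χ j := by
          rw [mul_sum]
          exact sum_congr rfl fun χ _ => by ring
      _ = 0 := by rw [h, mul_zero]

/-- **The zeros of the Hurwitz zeta function at `b / q`.** -/
theorem exists_hurwitzZeros_ge {a : ZMod q} (ha : IsUnit a) (hq : 3 ≤ q) {σ₁ σ₂ : ℝ}
    (hσ₁ : 1 / 2 < σ₁) (hσ : σ₁ < σ₂) (hσ₂ : σ₂ < 1) :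
    ∃ C : ℝ, 0 < C ∧ ∀ᶠ T : ℝ in atTop, C * T ≤
      ({s : ℂ | σ₁ < s.re ∧ s.re < σ₂ ∧ 0 < s.im ∧ s.im ≤ T ∧
        hurwitzZeta (ZMod.toAddCircle a) s = 0}).ncard := by
  have : Fact (2 < q) := ⟨by omega⟩
  obtain ⟨χ, hχ⟩ := DirichletCharacter.exists_apply_ne_one_of_hasEnoughRootsOfUnity ℂ
    (n := q) (ZMod.neg_one_ne_one (n := q))
  have hu : IsUnit a⁻¹ := IsUnit.of_mul_eq_one a (ZMod.inv_mul_of_unit a ha)
  have hne : ∀ ψ : DirichletCharacter ℂ q, ψ a⁻¹ ≠ 0 := fun ψ => (hu.map ψ).ne_zero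
  obtain ⟨C, hC, hev⟩ := exists_combZeros_ge (c := fun ψ : DirichletCharacter ℂ q => ψ a⁻¹)
    (χ₁ := 1) (χ₂ := χ) (fun h => hχ (by rw [← h, MulChar.one_apply isUnit_one.neg]))
    (hne 1) (hne χ) hσ₁ hσ hσ₂
  refine ⟨C, hC, hev.mono fun T hT => hT.trans_eq ?_⟩
  congr 2
  ext s
  simp only [combZeros, Set.mem_ofPred_eq, hurwitzZeta_eq_charComb ha, mul_eq_zero, div_eq_zero_iff,
    Complex.cpow_eq_zero_iff, Nat.cast_eq_zero, NeZero.ne q, false_and,
    (Nat.totient_pos.2 (NeZero.pos q)).ne', false_or]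

end FA.Joint
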