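import Fermat.Agent.BohrLandau.Approx
import Fermat.Agent.SiegelWalfisz.Bounds
import Mathlib.Analysis.SpecialFunctions.Complex.CircleAddChar

/-!
# The truncation of `L (σ + it, χ)` for a non-principal character

Writing `χ` in additive characters, Kuzmin–Landau bounds every sum `∑ χ n n^(-it)` over `n ≥ q t`
by `3 q²`; so the partial sum up to `M ≥ q t` is off by `O (q² (M + 1)^(-1/2))` for `σ ≥ 1/2`.
-/

set_option autoImplicit false

noncomputable section

namespace FA.Joint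

open Finset
open FA.Subconvexity (expI phase)
open scoped Real

variable {q : ℕ} [NeZero q]

/-- The Fourier coefficients of `χ`. -/
def charCoeff (χ : DirichletCharacter ℂ q) (k : ZMod q) : ℂ :=
  (q : ℂ)⁻¹ * ∑ r : ZMod q, χ r * ZMod.stdAddChar (k * -r)

theorem norm_charCoeff_le (χ : DirichletCharacter ℂ q) (k : ZMod q) : ‖charCoeff χ k‖ ≤ 1 := by
  have hq : (0 : ℝ) < q := Nat.cast_pos.2 (NeZero.pos q)
  rw [charCoeff, norm_mul, norm_inv, Complex.norm_natCast, inv_mul_le_iff₀ hq, mul_one]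
  refine (norm_sum_le _ _).trans ((sum_le_card_nsmul _ _ 1 fun r _ => ?_).trans (by simp))
  rw [norm_mul, ZMod.stdAddChar_apply, Circle.norm_coe, mul_one]
  exact χ.norm_le_one _

theorem char_eq_sum (χ : DirichletCharacter ℂ q) (n : ZMod q) :
    χ n = ∑ k : ZMod q, charCoeff χ k * ZMod.stdAddChar (k * n) := by
  classical
  simp only [charCoeff, mul_sum, sum_mul, mul_assoc, ← AddChar.map_add_eq_mul, ← mul_add]
  rw [sum_comm]
  simp only [← mul_sum, AddChar.sum_mulShift _ (ZMod.isPrimitive_stdAddChar q), ZMod.card,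
    neg_add_eq_zero, mul_ite, Nat.cast_ite, Nat.cast_zero, mul_zero, sum_ite_eq', mem_univ, if_true]
  rw [mul_comm (χ n), ← mul_assoc, inv_mul_cancel₀ (Nat.cast_ne_zero.2 (NeZero.ne q)), one_mul]

theorem charCoeff_zero {χ : DirichletCharacter ℂ q} (hχ : χ ≠ 1) : charCoeff χ 0 = 0 := by
  simp [charCoeff, MulChar.sum_eq_zero_of_ne_one hχ]

theorem stdAddChar_mul_natCast (k : ZMod q) (n : ℕ) :
    ZMod.stdAddChar (k * (n : ZMod q)) = expI (2 * π * (k.val : ℝ) / q * n) := by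
  rw [mul_comm k, ← nsmul_eq_mul, AddChar.map_nsmul_eq_pow, ZMod.stdAddChar_apply,
    ZMod.toCircle_apply, expI, ← Complex.exp_nat_mul]
  push_cast
  ring_nf

/-- **The twisted sum beyond `q t`.** -/
theorem norm_char_block_le {χ : DirichletCharacter ℂ q} (hχ : χ ≠ 1) {t : ℝ} (ht : 1 ≤ t)
    {a b : ℕ} (hta : (q : ℝ) * t ≤ a) :
    ‖∑ n ∈ Ico a b, χ n * expI (phase t n)‖ ≤ 3 * (q : ℝ) ^ 2 := by
  have hq1 : (1 : ℝ) ≤ q := by exact_mod_cast NeZero.pos q
  have hq0 : (0 : ℝ) < q := by linarith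
  have ht0 : 0 < t := by linarith
  have ha0 : (0 : ℝ) < a := (mul_pos hq0 ht0).trans_le hta
  have hk : ∀ k : ZMod q,
      ‖charCoeff χ k * ∑ n ∈ Ico a b, expI (2 * π * (k.val : ℝ) / q * n + phase t n)‖ ≤
        1 + 2 * q := by
    intro k
    rcases eq_or_ne k 0 with rfl | hk
    · rw [charCoeff_zero hχ, zero_mul, norm_zero]
      positivity
    rw [norm_mul]
    refine (mul_le_of_le_one_left (norm_nonneg _) (norm_charCoeff_le χ k)).trans ?_
    have hv1 : (1 : ℝ) ≤ (k.val : ℝ) := by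
      exact_mod_cast Nat.one_le_iff_ne_zero.2 (mt (ZMod.val_eq_zero k).1 hk)
    have hv2 : (k.val : ℝ) + 1 ≤ q := by exact_mod_cast ZMod.val_lt k
    refine (FA.Subconvexity.norm_kuzmin_le (lam := π / q) (k := 0) (by positivity)
      (fun n hn => ?_) (Or.inl fun n hn _ => ?_)).trans (le_of_eq ?_)
    · rw [mem_Ico] at hn
      have han : (a : ℝ) ≤ n := Nat.cast_le.2 hn.1
      have hn1 : 1 ≤ n := Nat.cast_le.1 (show ((1 : ℕ) : ℝ) ≤ n by push_cast; nlinarith)
      obtain ⟨h1, h2⟩ := FA.Subconvexity.first_diff_log hn1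
      have hL0 : 0 ≤ t * (Real.log ((n : ℝ) + 1) - Real.log n) :=
        mul_nonneg ht0.le (le_trans (by positivity) h1)
      have hL1 : t * (Real.log ((n : ℝ) + 1) - Real.log n) ≤ 1 / q := by
        refine (mul_le_mul_of_nonneg_left h2 ht0.le).trans ?_
        rw [mul_one_div, div_le_div_iff₀ (by linarith) hq0]
        nlinarith
      have e : (2 * π * (k.val : ℝ) / q * ((n + 1 : ℕ) : ℝ) + phase t (n + 1)) -
          (2 * π * (k.val : ℝ) / q * n + phase t n) =
          2 * π * (k.val : ℝ) / q - t * (Real.log ((n : ℝ) + 1) - Real.log n) := by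
        rw [phase, phase, Nat.cast_add, Nat.cast_one]
        ring
      have hlo : π / q + 1 / q ≤ 2 * π * (k.val : ℝ) / q := by
        rw [← add_div]
        refine div_le_div_of_nonneg_right ?_ hq0.le
        nlinarith [Real.pi_gt_three]
      have hhi : 2 * π * (k.val : ℝ) / q ≤ 2 * π - π / q := by
        rw [le_sub_iff_add_le, ← add_div, div_le_iff₀ hq0]
        nlinarith [Real.pi_pos]
      rw [e, Int.cast_zero]
      constructor <;> linarith
    · rw [mem_Ico] at hn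
      have han : (a : ℝ) ≤ n := Nat.cast_le.2 hn.1
      have hn1 : 1 ≤ n := Nat.cast_le.1 (show ((1 : ℕ) : ℝ) ≤ n by push_cast; nlinarith)
      have h' := mul_nonneg ht0.le
        (le_trans (by positivity) (FA.Subconvexity.second_diff_log hn1).1)
      rw [phase, phase, phase]
      push_cast
      linarith
    · field_simp
  have e : ∑ n ∈ Ico a b, χ n * expI (phase t n) =
      ∑ k : ZMod q, charCoeff χ k *
        ∑ n ∈ Ico a b, expI (2 * π * (k.val : ℝ) / q * n + phase t n) := by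
    simp only [mul_sum, FA.Subconvexity.expI_add, ← stdAddChar_mul_natCast, ← mul_assoc]
    rw [sum_comm]
    simp only [← sum_mul, ← char_eq_sum]
  rw [e]
  refine (norm_sum_le _ _).trans ((sum_le_card_nsmul _ _ _ fun k _ => hk k).trans ?_)
  rw [card_univ, ZMod.card, nsmul_eq_mul]
  nlinarith

/-- The partial sum of the series. -/
def charVertSum (χ : DirichletCharacter ℂ q) (σ : ℝ) (M : ℕ) (t : ℝ) : ℂ :=
  ∑ n ∈ Icc 1 M, χ n * (1 / (n : ℂ) ^ ((σ : ℂ) + t * Complex.I))

/-- **The approximation of `L (σ + it, χ)` by its partial sum.** -/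
theorem norm_charVertErr_le {χ : DirichletCharacter ℂ q} (hχ : χ ≠ 1) {σ t : ℝ} (hσ : 1 / 2 ≤ σ)
    (hσ4 : σ ≤ 4) (ht : 2 ≤ t) {M : ℕ} (hM : (q : ℝ) * t ≤ (M : ℝ) + 1) :
    ‖DirichletCharacter.LFunction χ (σ + t * Complex.I) - charVertSum χ σ M t‖ ≤
      16 * (q : ℝ) ^ 2 / √((M : ℝ) + 1) := by
  have hq1 : (1 : ℝ) ≤ q := by exact_mod_cast NeZero.pos q
  have ht0 : 0 < t := by linarith
  obtain ⟨s, hs⟩ : ∃ s : ℂ, s = σ + t * Complex.I := ⟨_, rfl⟩
  have hre : s.re = σ := by simp [hs]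
  have him : s.im = t := by simp [hs]
  obtain ⟨X, hX⟩ : ∃ X, X = max (M + 1) ⌈t ^ 2 * ((M : ℝ) + 1)⌉₊ := ⟨_, rfl⟩
  have hMX : M + 1 ≤ X := hX ▸ le_max_left _ _
  have hXlo : t ^ 2 * ((M : ℝ) + 1) ≤ X :=
    (Nat.le_ceil _).trans (Nat.cast_le.2 (hX ▸ le_max_right _ _))
  have hX0 : (0 : ℝ) < X := Nat.cast_pos.2 (by omega)
  have hM1 : 0 < (M : ℝ) + 1 := by positivity
  have hXM : (M : ℝ) + 1 ≤ X := by exact_mod_cast hMX
  have hdec : ∀ x : ℝ, (M : ℝ) + 1 ≤ x → x ^ (-σ) ≤ 1 / √x := fun x hx => by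
    have h1 : (1 : ℝ) ≤ x := by linarith [(Nat.cast_nonneg M : (0 : ℝ) ≤ M)]
    rw [Real.sqrt_eq_rpow, one_div (x ^ (1 / 2 : ℝ)), ← Real.rpow_neg (by linarith)]
    exact Real.rpow_le_rpow_of_exponent_le h1 (by linarith)
  have hsM : 1 / √(X : ℝ) ≤ 1 / √((M : ℝ) + 1) :=
    one_div_le_one_div_of_le (Real.sqrt_pos.2 hM1) (Real.sqrt_le_sqrt hXM)
  have t1 : ‖∑ n ∈ Ico (M + 1) (X + 1), χ n * (1 / (n : ℂ) ^ s)‖ ≤
      3 * (q : ℝ) ^ 2 / √((M : ℝ) + 1) := by
    rw [sum_congr rfl (g := fun n : ℕ => (((n : ℝ) ^ (-σ) : ℝ) : ℂ) * (χ n * expI (phase t n)))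
      fun n hn => by
        rw [hs, FA.BohrLandau.term_eq_rpow (show 1 ≤ n by rw [mem_Ico] at hn; omega)]
        ring]
    refine (FA.Subconvexity.norm_sum_weight_le (w := fun n => (n : ℝ) ^ (-σ))
      (B := 3 * (q : ℝ) ^ 2) (by omega) (fun m _ _ => by positivity) (fun m hm _ => ?_)
      fun m hm _ => norm_char_block_le hχ (by linarith) (by push_cast; exact hM)).trans ?_
    · exact Real.rpow_le_rpow_of_nonpos (Nat.cast_pos.2 (by omega))
        (Nat.cast_le.2 m.le_succ) (by linarith)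
    · refine (mul_le_mul_of_nonneg_right (hdec _ (by push_cast; exact le_rfl))
        (by positivity)).trans (le_of_eq ?_)
      push_cast
      ring
  have t2 : ‖FA.Siegel.charSum χ X * (X : ℂ) ^ (-s)‖ ≤ (q : ℝ) ^ 2 / √((M : ℝ) + 1) := by
    rw [norm_mul, Complex.norm_natCast_cpow_of_pos (by omega), Complex.neg_re, hre,
      div_eq_mul_one_div]
    exact mul_le_mul ((FA.Siegel.norm_charSum_le hχ _).trans (by nlinarith))
      ((hdec _ hXM).trans hsM) (by positivity) (by positivity)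
  have t3 : ‖s * ∫ u in Set.Ioi (X : ℝ), FA.Siegel.charSum χ u * (u : ℂ) ^ (-(s + 1))‖ ≤
      12 * (q : ℝ) ^ 2 / √((M : ℝ) + 1) := by
    have hint : ‖∫ u in Set.Ioi (X : ℝ), FA.Siegel.charSum χ u * (u : ℂ) ^ (-(s + 1))‖ ≤
        q * ((X : ℝ) ^ (-s.re) / s.re) := by
      refine (MeasureTheory.norm_integral_le_of_norm_le
        ((integrableOn_Ioi_rpow_of_lt (a := -(s.re + 1)) (by linarith) hX0).const_mul (q : ℝ))
          ?_).trans (le_of_eq ?_)
      · filter_upwards [MeasureTheory.ae_restrict_mem measurableSet_Ioi] with u hu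
        exact FA.Siegel.norm_integrand_le hχ (hX0.trans (Set.mem_Ioi.1 hu))
      · rw [MeasureTheory.integral_const_mul, integral_Ioi_rpow_of_lt (by linarith) hX0,
          show -(s.re + 1) + 1 = -s.re by ring, neg_div_neg_eq]
    have hn : ‖s‖ ≤ 3 * t := by
      have := Complex.norm_le_abs_re_add_abs_im s
      rw [hre, him, abs_of_pos ht0, abs_of_pos (by linarith : (0 : ℝ) < σ)] at this
      linarith
    have hsX : t * √((M : ℝ) + 1) ≤ √(X : ℝ) := by
      refine Real.le_sqrt_of_sq_le ?_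
      rw [mul_pow, Real.sq_sqrt hM1.le]
      exact hXlo
    rw [norm_mul]
    refine (mul_le_mul hn hint (norm_nonneg _) (by linarith)).trans ?_
    rw [hre]
    calc 3 * t * ((q : ℝ) * ((X : ℝ) ^ (-σ) / σ))
        ≤ 3 * t * ((q : ℝ) * ((1 / √(X : ℝ)) / (1 / 2))) := by
          gcongr
          exact hdec _ hXM
      _ = 6 * q * (t / √(X : ℝ)) := by ring
      _ ≤ 6 * q * (1 / √((M : ℝ) + 1)) := by
          refine mul_le_mul_of_nonneg_left ?_ (by positivity)
          rw [div_le_div_iff₀ (Real.sqrt_pos.2 hX0) (Real.sqrt_pos.2 hM1), one_mul]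
          exact hsX
      _ ≤ _ := by
          rw [mul_one_div]
          exact div_le_div_of_nonneg_right (by nlinarith) (Real.sqrt_nonneg _)
  rw [← hs, charVertSum, ← hs, FA.SiegelWalfisz.lfunction_truncated hχ
    (show 0 < s.re by linarith) (N := X) (by omega),
    sum_congr rfl (g := fun n : ℕ => χ n * (1 / (n : ℂ) ^ s))
      (fun n _ => by rw [Complex.cpow_neg, one_div]),
    show Icc 1 X = Icc 1 M ∪ Ico (M + 1) (X + 1) by
      ext i; simp only [mem_union, mem_Icc, mem_Ico]; omega,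
    sum_union (disjoint_left.2 fun i ha hb => by
      simp only [mem_Icc, mem_Ico] at ha hb; omega)]
  refine le_trans (le_of_eq (congrArg norm ?_))
    ((norm_add_le _ _).trans ((add_le_add ((norm_sub_le _ _).trans (add_le_add t1 t2)) t3).trans
      (le_of_eq ?_)))
  · ring
  · ring

end FA.Joint
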