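import Fermat.Agent.Joint.MeanSquare
import Fermat.Agent.Voronin.Circle

/-!
# `L (s, χ) ∏ (1 - χ p p^(-s)) - 1` on small discs along `re s = 3/4`

As for `ζ`; for the trivial character this is the function of `ζ` itself as soon as `P` holds the
prime divisors of `q`.
-/

set_option autoImplicit false

noncomputable section

namespace FA.Joint

open Finset Filter Complex MeasureTheory
open FA.BohrCourant (dmono focus lineCoeff invEuler tailSum)
open FA.Voronin (devFun ringPoint ringPoint_ne_one ringMean focus_shift)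
open DirichletCharacter (LFunction)
open scoped Topology Real ComplexConjugate

variable {q : ℕ} [NeZero q] (P : Finset ℕ)

/-- `L (w, χ) ∏ (1 - χ p p^(-w)) - 1`. -/
def charDevFun (χ : DirichletCharacter ℂ q) (w : ℂ) : ℂ :=
  LFunction χ w * ∏ i : P, (1 - χ i * (i : ℂ) ^ (-w)) - 1

theorem differentiableAt_charDevFun (hP : ∀ p ∈ P, p.Prime) (χ : DirichletCharacter ℂ q) {w : ℂ}
    (hw : w ≠ 1) : DifferentiableAt ℂ (charDevFun P χ) w := by
  refine ((DirichletCharacter.differentiableAt_LFunction χ w (Or.inl hw)).mul ?_).sub_const 1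
  refine DifferentiableAt.fun_finsetProd fun i _ =>
    (differentiableAt_const _).sub ((differentiableAt_const _).mul ?_)
  exact differentiableAt_id.neg.const_cpow (Or.inl (Nat.cast_ne_zero.2 (hP i i.2).ne_zero))

theorem charDevFun_vert (hP : ∀ p ∈ P, p.Prime) (χ : DirichletCharacter ℂ q) (σ t : ℝ) :
    charDevFun P χ (σ + t * I) = LFunction χ (σ + t * I) * charInvEuler P χ σ t - 1 := by
  rw [charDevFun, charInvEuler]
  congr 2
  refine prod_congr rfl fun i _ => ?_
  rw [twistCoeff, mul_assoc, FA.BohrCourant.lineTerm_eq (hP i i.2).pos, one_div, Complex.cpow_neg]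

/-- For the trivial character it is the function of `ζ`. -/
theorem charDevFun_one (hP : ∀ p ∈ P, p.Prime) (hq : q.primeFactors ⊆ P) {w : ℂ} (hw : w ≠ 1) :
    charDevFun P (1 : DirichletCharacter ℂ q) w = devFun P w := by
  rw [charDevFun, devFun, ← DirichletCharacter.LFunctionTrivChar,
    DirichletCharacter.LFunctionTrivChar_eq_mul_riemannZeta hw,
    prod_coe_sort P fun p => 1 - (1 : DirichletCharacter ℂ q) p * (p : ℂ) ^ (-w),
    prod_coe_sort P fun p => 1 - (p : ℂ) ^ (-w), ← prod_sdiff hq, ← prod_sdiff hq,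
    prod_eq_one (s := q.primeFactors)
      (f := fun p => 1 - (1 : DirichletCharacter ℂ q) p * (p : ℂ) ^ (-w)) fun p hp => ?_,
    prod_congr (s₁ := P \ q.primeFactors) rfl
      (f := fun p => 1 - (1 : DirichletCharacter ℂ q) p * (p : ℂ) ^ (-w))
      (g := fun p => 1 - (p : ℂ) ^ (-w)) fun p hp => ?_]
  · ring
  · obtain ⟨hp1, hp2⟩ := Finset.mem_sdiff.1 hp
    rw [MulChar.one_apply, one_mul]
    exact (ZMod.isUnit_iff_coprime p q).2 ((hP p hp1).coprime_iff_not_dvd.2 fun h =>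
      hp2 (Nat.mem_primeFactors.2 ⟨hP p hp1, h, NeZero.ne q⟩))
  · obtain ⟨hp1, hp2, -⟩ := Nat.mem_primeFactors.1 hp
    rw [MulChar.map_nonunit, zero_mul, sub_zero]
    exact fun h => hp1.coprime_iff_not_dvd.1 ((ZMod.isUnit_iff_coprime p q).1 h) hp2

/-- The mean square on the circle. -/
def charRingMean (χ : DirichletCharacter ℂ q) (ρ t : ℝ) : ℝ :=
  ∫ θ in (0 : ℝ)..2 * π, ‖charDevFun P χ (ringPoint ρ t θ)‖ ^ 2

theorem continuous_charDevFun_ring (hP : ∀ p ∈ P, p.Prime) (χ : DirichletCharacter ℂ q) {ρ : ℝ}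
    (hρ : |ρ| < 1) :
    Continuous (Function.uncurry fun t θ => ‖charDevFun P χ (ringPoint ρ t θ)‖ ^ 2) := by
  refine (Continuous.norm ?_).pow 2
  have hc : Continuous fun x : ℝ × ℝ => ringPoint ρ x.1 x.2 :=
    (continuous_const.add ((Complex.continuous_ofReal.comp
      (continuous_fst.max continuous_const)).mul continuous_const)).add
      ((continuous_circleMap 0 ρ).comp continuous_snd)
  exact continuous_iff_continuousAt.2 fun x =>
    (differentiableAt_charDevFun P hP χ (ringPoint_ne_one hρ x.1 x.2)).continuousAt.comp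
      (f := fun x : ℝ × ℝ => ringPoint ρ x.1 x.2) hc.continuousAt

theorem continuous_charRingMean (hP : ∀ p ∈ P, p.Prime) (χ : DirichletCharacter ℂ q) {ρ : ℝ}
    (hρ : |ρ| < 1) :
    Continuous (charRingMean P χ ρ) :=
  intervalIntegral.continuous_parametric_intervalIntegral_of_continuous'
    (continuous_charDevFun_ring P hP χ hρ) 0 (2 * π)

theorem charRingMean_nonneg (χ : DirichletCharacter ℂ q) (ρ t : ℝ) : 0 ≤ charRingMean P χ ρ t :=
  intervalIntegral.integral_nonneg Real.two_pi_pos.le fun _ _ => sq_nonneg _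

/-- **The supremum is bounded by the mean square on the circle.** -/
theorem norm_charDevFun_sq_le (hP : ∀ p ∈ P, p.Prime) (χ : DirichletCharacter ℂ q) {r ρ : ℝ}
    (hr : r < ρ) (hρ : ρ < 1) {t : ℝ}
    (ht : 3 ≤ t) {s : ℂ} (hs : ‖s‖ ≤ r) :
    ‖charDevFun P χ (3 / 4 + t * I + s)‖ ^ 2 ≤ ρ / (ρ - r) / (2 * π) * charRingMean P χ ρ t := by
  have hρ0 : 0 < ρ := ((norm_nonneg s).trans hs).trans_lt hr
  have hd : DifferentiableOn ℂ (fun z => charDevFun P χ (3 / 4 + t * I + z) ^ 2)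
      (Metric.closedBall 0 ρ) := fun z hz => by
    rw [Metric.mem_closedBall, dist_zero_right] at hz
    refine (((differentiableAt_charDevFun P hP χ fun h => ?_).comp z
      (differentiableAt_id.const_add _)).pow 2).differentiableWithinAt
    have h1 := congrArg Complex.im h
    simp at h1
    linarith [(abs_le.1 ((Complex.abs_im_le_norm z).trans hz)).1]
  have hcauchy := hd.circleIntegral_sub_inv_smul (w := s)
    (Metric.mem_ball.2 (by rw [dist_zero_right]; linarith))
  have hring := continuous_charDevFun_ring P hP χ (show |ρ| < 1 by rwa [abs_of_pos hρ0])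
  have hint : Continuous fun θ : ℝ => ‖charDevFun P χ (ringPoint ρ t θ)‖ ^ 2 :=
    Continuous.comp (g := Function.uncurry fun t θ => ‖charDevFun P χ (ringPoint ρ t θ)‖ ^ 2)
      (f := fun θ : ℝ => (t, θ)) hring (Continuous.prodMk_right t)
  have hkey :
      2 * π * ‖charDevFun P χ (3 / 4 + t * I + s)‖ ^ 2 ≤ ρ / (ρ - r) * charRingMean P χ ρ t := by
    have e : ‖(2 * π * I : ℂ) • charDevFun P χ (3 / 4 + t * I + s) ^ 2‖ =
        2 * π * ‖charDevFun P χ (3 / 4 + t * I + s)‖ ^ 2 := by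
      simp [norm_pow, abs_of_pos Real.pi_pos]
    rw [← e, ← hcauchy, circleIntegral, charRingMean, ← intervalIntegral.integral_const_mul]
    refine intervalIntegral.norm_integral_le_of_norm_le Real.two_pi_pos.le
      (Eventually.of_forall fun θ _ => ?_) ((hint.const_mul _).intervalIntegrable _ _)
    rw [deriv_circleMap, smul_eq_mul, smul_eq_mul, norm_mul, norm_mul, norm_mul, Complex.norm_I,
      norm_circleMap_zero, abs_of_pos hρ0, norm_inv, norm_pow, mul_one, ← mul_assoc,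
      ← div_eq_mul_inv, ringPoint, max_eq_left ht]
    refine mul_le_mul_of_nonneg_right
      (div_le_div_of_nonneg_left hρ0.le (sub_pos.2 hr) ?_) (sq_nonneg _)
    refine le_trans ?_ (norm_sub_norm_le _ _)
    rw [norm_circleMap_zero, abs_of_pos hρ0]
    linarith
  calc ‖charDevFun P χ (3 / 4 + t * I + s)‖ ^ 2
      = 2 * π * ‖charDevFun P χ (3 / 4 + t * I + s)‖ ^ 2 / (2 * π) := by
        field_simp
    _ ≤ ρ / (ρ - r) * charRingMean P χ ρ t / (2 * π) :=
        div_le_div_of_nonneg_right hkey Real.two_pi_pos.le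
    _ = _ := by ring

/-- **The weighted mean over the circle.** -/
theorem eventually_charRingMean_le_of_ne {χ : DirichletCharacter ℂ q} (hχ : χ ≠ 1)
    (hP : ∀ p ∈ P, p.Prime) {ρ : ℝ} (hρ0 : 0 ≤ ρ) (hρ : ρ < 1 / 4)
    (K : ℕ) {M : ℕ} (hM : ∀ n, 2 ≤ n → n ≤ M → ∃ p ∈ P, p ∣ n) {η : ℝ} (hη : 0 < η) :
    ∀ᶠ T : ℝ in atTop, ∀ z : ℕ → ℂ, (∀ n, ‖z n‖ = 1) →
      ∫ t in (3 : ℝ)..T, ‖focus P K z t‖ ^ 2 * charRingMean P χ ρ t ≤
        4 * π * (3 * ((K : ℝ) + 1) ^ P.card * tailSum (3 / 4 - ρ) M + η) * T := by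
  filter_upwards [(tendsto_atTop_add_const_right atTop (1 : ℝ) tendsto_id).eventually
    (eventually_charDev_le P hχ hP
      (show (1 : ℝ) / 2 < 3 / 4 - ρ by linarith) K hM hη), eventually_ge_atTop (3 : ℝ)]
    with T hdev hT z hz
  simp only [id_eq] at hdev
  obtain ⟨C, hC⟩ : ∃ C, C = 3 * ((K : ℝ) + 1) ^ P.card * tailSum (3 / 4 - ρ) M + η := ⟨_, rfl⟩
  have hC0 : 0 ≤ C := hC ▸ by
    have := FA.BohrCourant.tailSum_nonneg (3 / 4 - ρ) M
    positivity
  have hρ1 : |ρ| < 1 := by rw [abs_of_nonneg hρ0]; linarith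
  obtain ⟨Φ, hΦ⟩ : ∃ Φ : ℝ → ℝ → ℝ,
      Φ = fun t θ => ‖focus P K z t‖ ^ 2 * ‖charDevFun P χ (ringPoint ρ t θ)‖ ^ 2 := ⟨_, rfl⟩
  have hΦc : Continuous (Function.uncurry Φ) := hΦ ▸
    (((FA.BohrCourant.continuous_localProd P hP K _).norm.pow 2).comp continuous_fst).mul
      (continuous_charDevFun_ring P hP χ hρ1)
  have hin : ∀ θ : ℝ, ∫ t in (3 : ℝ)..T, Φ t θ ≤ C * (T + 1) := by
    intro θ
    obtain ⟨z', hz', hfoc⟩ := focus_shift P hP K hz (ρ * Real.sin θ)
    obtain ⟨σ, hσ⟩ : ∃ σ, σ = 3 / 4 + ρ * Real.cos θ := ⟨_, rfl⟩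
    obtain ⟨hc1, hc2⟩ := abs_le.1 (Real.abs_cos_le_one θ)
    obtain ⟨hs1, hs2⟩ := abs_le.1 (Real.abs_sin_le_one θ)
    have hi := intervalIntegrable_charDev P hχ hP σ z' K (A := 2) (T := T + 1)
    have h := hdev σ z' (by rw [hσ]; nlinarith) (by rw [hσ]; nlinarith) hz'
    rw [← hC, div_le_iff₀ (by linarith)] at h
    rw [intervalIntegral.integral_congr (g := fun t => ‖focus P K z' (t + ρ * Real.sin θ) *
      (LFunction χ ((σ : ℂ) + ((t + ρ * Real.sin θ : ℝ) : ℂ) * I) *
        charInvEuler P χ σ (t + ρ * Real.sin θ) - 1)‖ ^ 2) fun t ht => ?_,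
      intervalIntegral.integral_comp_add_right (fun v => ‖focus P K z' v *
        (LFunction χ ((σ : ℂ) + (v : ℂ) * I) * charInvEuler P χ σ v - 1)‖ ^ 2)]
    · exact (intervalIntegral.integral_mono_interval (by nlinarith) (by linarith) (by nlinarith)
        (Eventually.of_forall fun _ => sq_nonneg _) hi).trans h
    · rw [Set.uIcc_of_le hT] at ht
      simp only [hΦ, hfoc, ← charDevFun_vert P hP χ, norm_mul, mul_pow]
      congr 4
      rw [ringPoint, max_eq_left ht.1, hσ]
      refine Complex.ext ?_ ?_ <;> simp [circleMap, Complex.exp_mul_I, ← Complex.ofReal_cos,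
        ← Complex.ofReal_sin]
  have hswap : ∫ t in (3 : ℝ)..T, ‖focus P K z t‖ ^ 2 * charRingMean P χ ρ t =
      ∫ θ in (0 : ℝ)..2 * π, ∫ t in (3 : ℝ)..T, Φ t θ := by
    rw [← intervalIntegral_intervalIntegral_swap
      ((hΦc.continuousOn.integrableOn_compact (isCompact_uIcc.prod isCompact_uIcc)).mono_set
        (Set.prod_mono Set.uIoc_subset_uIcc Set.uIoc_subset_uIcc))]
    simp only [charRingMean, ← intervalIntegral.integral_const_mul, hΦ]
  rw [hswap, ← hC]
  refine (intervalIntegral.integral_mono_on Real.two_pi_pos.le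
    ((intervalIntegral.continuous_parametric_intervalIntegral_of_continuous'
      (f := fun θ t => Φ t θ) (hΦc.comp continuous_swap) 3 T).intervalIntegrable _ _)
    intervalIntegrable_const fun θ _ => hin θ).trans ?_
  rw [intervalIntegral.integral_const, smul_eq_mul, sub_zero]
  nlinarith [mul_nonneg (mul_nonneg Real.pi_pos.le hC0) (show 0 ≤ T - 1 by linarith)]

/-- The weighted mean over the circle, for every character. -/
theorem eventually_charRingMean_le (hP : ∀ p ∈ P, p.Prime) (hq : q.primeFactors ⊆ P)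
    (χ : DirichletCharacter ℂ q) {ρ : ℝ} (hρ0 : 0 ≤ ρ) (hρ : ρ < 1 / 4)
    (K : ℕ) {M : ℕ} (hM : ∀ n, 2 ≤ n → n ≤ M → ∃ p ∈ P, p ∣ n) {η : ℝ} (hη : 0 < η) :
    ∀ᶠ T : ℝ in atTop, ∀ z : ℕ → ℂ, (∀ n, ‖z n‖ = 1) →
      ∫ t in (3 : ℝ)..T, ‖focus P K z t‖ ^ 2 * charRingMean P χ ρ t ≤
        4 * π * (3 * ((K : ℝ) + 1) ^ P.card * tailSum (3 / 4 - ρ) M + η) * T := by
  rcases eq_or_ne χ 1 with rfl | hχ
  · have e : charRingMean P (1 : DirichletCharacter ℂ q) ρ = ringMean P ρ := funext fun t =>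
      intervalIntegral.integral_congr fun θ _ => by
        rw [charDevFun_one P hP hq (ringPoint_ne_one (by rw [abs_of_nonneg hρ0]; linarith) t θ)]
    rw [e]
    exact FA.Voronin.eventually_ringMean_le P hP hρ0 hρ K hM hη
  · exact eventually_charRingMean_le_of_ne P hχ hP hρ0 hρ K hM hη

end FA.Joint
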