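import Fermat.Agent.Joint.Combination
import Fermat.Agent.AbelianFE.CompletedProduct

/-!
# Combinations with a functional equation

For a primitive `χ` the combination `L (s, χ) + ε L (s, χ⁻¹)`, `ε` the root number of `χ`, has a
completion invariant under `s ↦ 1 - s`, as the root numbers of `χ` and `χ⁻¹` multiply to `1`. If
`χ` is not real the two coefficients belong to different characters.
-/

set_option autoImplicit false

noncomputable section

namespace FA.Joint

open Finset Filter Complex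
open DirichletCharacter (LFunction completedLFunction gammaFactor rootNumber)
open scoped Topology Real

variable {q : ℕ} [NeZero q]

/-- `L (s, χ) + ε L (s, χ⁻¹)`. -/
def selfDualComb (χ : DirichletCharacter ℂ q) (s : ℂ) : ℂ :=
  LFunction χ s + rootNumber χ * LFunction χ⁻¹ s

/-- `q^(s/2) (Λ (s, χ) + ε Λ (s, χ⁻¹))`. -/
def selfDualCompleted (χ : DirichletCharacter ℂ q) (s : ℂ) : ℂ :=
  (q : ℂ) ^ (s / 2) * (completedLFunction χ s + rootNumber χ * completedLFunction χ⁻¹ s)

omit [NeZero q] in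
theorem gammaFactor_inv (χ : DirichletCharacter ℂ q) (s : ℂ) :
    gammaFactor χ⁻¹ s = gammaFactor χ s := by
  have e : χ⁻¹ (-1) = χ (-1) := by
    rcases χ.even_or_odd with h | h <;> rw [MulChar.inv_apply_eq_inv', h] <;> norm_num
  simp only [gammaFactor, DirichletCharacter.Even, e]
  congr 1

theorem selfDualCompleted_eq {χ : DirichletCharacter ℂ q} {s : ℂ} (hs : 0 < s.re) :
    selfDualCompleted χ s = (q : ℂ) ^ (s / 2) * gammaFactor χ s * selfDualComb χ s := by
  have h0 : s ≠ 0 := fun h => by simp [h] at hs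
  have hγ : gammaFactor χ s ≠ 0 := by
    rcases χ.even_or_odd with h | h <;> rw [h.gammaFactor_def]
    · exact Gammaℝ_ne_zero_of_re_pos hs
    · exact Gammaℝ_ne_zero_of_re_pos (by simp; linarith)
  rw [selfDualComb, selfDualCompleted,
    DirichletCharacter.LFunction_eq_completed_div_gammaFactor χ s (Or.inl h0),
    DirichletCharacter.LFunction_eq_completed_div_gammaFactor χ⁻¹ s (Or.inl h0), gammaFactor_inv]
  field_simp

theorem selfDualCompleted_one_sub {χ : DirichletCharacter ℂ q} (hχ : χ.IsPrimitive) (s : ℂ) :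
    selfDualCompleted χ (1 - s) = selfDualCompleted χ s := by
  have hχ' : χ⁻¹.IsPrimitive := by
    rw [DirichletCharacter.isPrimitive_def, DirichletCharacter.conductor_inv]
    exact (DirichletCharacter.isPrimitive_def χ).1 hχ
  have hq : (q : ℂ) ≠ 0 := Nat.cast_ne_zero.2 (NeZero.ne q)
  have e : (q : ℂ) ^ ((1 - s) / 2) * (q : ℂ) ^ (s - 1 / 2) = (q : ℂ) ^ (s / 2) := by
    rw [← Complex.cpow_add _ _ hq]
    ring_nf
  have hε := FA.AbelianFE.rootNumber_mul_inv hχ
  rw [selfDualCompleted, selfDualCompleted, hχ.completedLFunction_one_sub,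
    hχ'.completedLFunction_one_sub, inv_inv, ← e]
  linear_combination
    (q : ℂ) ^ ((1 - s) / 2) * (q : ℂ) ^ (s - 1 / 2) * completedLFunction χ s * hε

theorem selfDualComb_eq_LSeries (χ : DirichletCharacter ℂ q) {s : ℂ} (hs : 1 < s.re) :
    selfDualComb χ s =
      LSeries (fun n : ℕ => χ n + rootNumber χ * χ⁻¹ n) s := by
  have h : ∀ ψ : DirichletCharacter ℂ q, LSeriesSummable (fun n : ℕ => ψ n) s := fun ψ =>
    ZMod.LSeriesSummable_of_one_lt_re (fun j => ψ j) hs
  rw [selfDualComb, DirichletCharacter.LFunction_eq_LSeries χ hs,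
    DirichletCharacter.LFunction_eq_LSeries χ⁻¹ hs, ← LSeries_smul,
    ← LSeries_add (h χ) ((h χ⁻¹).smul _)]
  rfl

theorem selfDualComb_eq_sum (χ : DirichletCharacter ℂ q) (hχ : χ⁻¹ ≠ χ) [DecidableEq
    (DirichletCharacter ℂ q)] (s : ℂ) :
    charComb (fun ψ => if ψ = χ then 1 else if ψ = χ⁻¹ then rootNumber χ else 0) s =
      selfDualComb χ s := by
  rw [charComb, selfDualComb, sum_eq_add χ χ⁻¹ hχ.symm (fun ψ _ h => by
    rw [if_neg h.1, if_neg h.2, zero_mul]) (fun h => absurd (mem_univ χ) h)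
    (fun h => absurd (mem_univ χ⁻¹) h)]
  rw [if_pos rfl, one_mul, if_neg hχ, if_pos rfl]

/-- **The count of zeros off the line.** -/
theorem exists_selfDualZeros_ge {χ : DirichletCharacter ℂ q} (hp : χ.IsPrimitive) (hχ : χ⁻¹ ≠ χ)
    {σ₁ σ₂ : ℝ} (hσ₁ : 1 / 2 < σ₁) (hσ : σ₁ < σ₂) (hσ₂ : σ₂ < 1) :
    ∃ C : ℝ, 0 < C ∧ ∀ᶠ T : ℝ in atTop, C * T ≤
      ({s : ℂ | σ₁ < s.re ∧ s.re < σ₂ ∧ 0 < s.im ∧ s.im ≤ T ∧
        selfDualComb χ s = 0}).ncard := by
  classical
  have h2 : rootNumber χ ≠ 0 := left_ne_zero_of_mul_eq_one (FA.AbelianFE.rootNumber_mul_inv hp)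
  obtain ⟨C, hC, hev⟩ := exists_combZeros_ge
    (c := fun ψ => if ψ = χ then 1 else if ψ = χ⁻¹ then rootNumber χ else 0) hχ.symm
    (by simp) (by simp [hχ, h2]) hσ₁ hσ hσ₂
  refine ⟨C, hC, hev.mono fun T hT => hT.trans_eq ?_⟩
  congr 2
  ext s
  simp only [combZeros, Set.mem_ofPred_eq, selfDualComb_eq_sum χ hχ]

/-- There is a primitive character modulo `5` that is not real. -/
theorem exists_complex_character_five :
    ∃ χ : DirichletCharacter ℂ 5, χ.IsPrimitive ∧ χ⁻¹ ≠ χ := by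
  obtain ⟨χ, hχ⟩ := DirichletCharacter.exists_apply_ne_one_of_hasEnoughRootsOfUnity ℂ (n := 5)
    (show (4 : ZMod 5) ≠ 1 by decide)
  refine ⟨χ, ?_, fun h => hχ ?_⟩
  · rw [DirichletCharacter.isPrimitive_def]
    refine ((Nat.dvd_prime Nat.prime_five).1 χ.conductor_dvd_level).resolve_left fun h => hχ ?_
    rw [DirichletCharacter.eq_one_iff_conductor_eq_one.2 h, MulChar.one_apply]
    decide
  · have h1 := DFunLike.congr_fun (inv_mul_cancel χ) (2 : ZMod 5)
    rw [h, MulChar.mul_apply, ← map_mul, MulChar.one_apply (by decide)] at h1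
    exact h1

end FA.Joint
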