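import Fermat.Agent.Joint.Main

/-!
# The jets of the `L`-functions modulo `q`

Taylor polynomials with constant term off `0` are admissible targets, and Cauchy's inequality
passes from a small disc to the derivatives at its centre.
-/

set_option autoImplicit false

noncomputable section

namespace FA.Joint

open Finset Filter Complex
open DirichletCharacter (LFunction)
open scoped Topology

variable {q : ℕ} [NeZero q]

theorem exists_L_jets (n : ℕ) (a : DirichletCharacter ℂ q → ℕ → ℂ) {ε : ℝ} (hε : 0 < ε) (T₀ : ℝ) :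
    ∃ t : ℝ, T₀ ≤ t ∧ ∀ χ : DirichletCharacter ℂ q, ∀ k < n,
      ‖iteratedDeriv k (LFunction χ) (3 / 4 + t * I) - a χ k‖ < ε := by
  classical
  have hex : ∀ χ, ∃ c : ℂ, ‖c - a χ 0‖ ≤ ε / 2 ∧ c ≠ 0 := fun χ => by
    rcases eq_or_ne (a χ 0) 0 with h | h
    · refine ⟨((ε / 2 : ℝ) : ℂ), ?_, Complex.ofReal_ne_zero.2 (by linarith)⟩
      rw [h, sub_zero, Complex.norm_real, Real.norm_of_nonneg (by linarith)]
    · exact ⟨a χ 0, by rw [sub_self, norm_zero]; linarith, h⟩
  choose a₀ ha₀ hne using hex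
  obtain ⟨c, hc⟩ : ∃ c : DirichletCharacter ℂ q → ℕ → ℂ,
      c = fun χ k => if k = 0 then a₀ χ else a χ k := ⟨_, rfl⟩
  obtain ⟨f, hf⟩ : ∃ f : DirichletCharacter ℂ q → ℂ → ℂ,
      f = fun χ s => ∑ k ∈ range (n + 1), c χ k * s ^ k / (k.factorial : ℂ) := ⟨_, rfl⟩
  have hfd : ∀ χ, Differentiable ℂ (f χ) := fun χ => hf ▸ by fun_prop
  have hjet : ∀ χ, ∀ k < n, iteratedDeriv k (f χ) 0 = c χ k := fun χ k hk => by
    rw [hf, iteratedDeriv_fun_sum fun i _ => by fun_prop]
    simp only [iteratedDeriv_div_const, iteratedDeriv_const_mul_field, iteratedDeriv_fun_pow_zero]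
    rw [sum_eq_single_of_mem k (mem_range.2 (hk.trans n.lt_succ_self))
      fun i _ hi => by rw [if_neg hi.symm]; simp, if_pos rfl,
      mul_div_cancel_right₀ _ (Nat.cast_ne_zero.2 k.factorial_ne_zero)]
  have hf0 : ∀ χ, f χ 0 ≠ 0 := fun χ => by
    rw [hf]
    simp [sum_range_succ', hc, hne]
  obtain ⟨δ, hδ0, hδ⟩ := Metric.eventually_nhds_iff.1 (eventually_all.2 fun χ =>
    ((hfd χ).continuous.continuousAt.eventually_ne (hf0 χ)))
  obtain ⟨r, hr⟩ : ∃ r, r = min (δ / 2) (1 / 8) := ⟨_, rfl⟩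
  have hr0 : 0 < r := hr ▸ lt_min (half_pos hδ0) (by norm_num)
  have hr8 : r ≤ 1 / 8 := hr ▸ min_le_right _ _
  obtain ⟨η, hη⟩ : ∃ η, η = ε / 4 * r ^ n / n.factorial := ⟨_, rfl⟩
  have hη0 : 0 < η := hη ▸ by positivity
  obtain ⟨t, ht, htu⟩ := exists_L_universal hr0 (by linarith)
    (fun χ => (hfd χ).continuous.continuousOn) (fun χ => (hfd χ).differentiableOn)
    (fun χ s hs => hδ (lt_of_le_of_lt (Metric.mem_closedBall.1 hs)
      (lt_of_le_of_lt (hr ▸ min_le_left _ _) (half_lt_self hδ0))) χ) hη0 (max T₀ 1)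
  refine ⟨t, le_trans (le_max_left _ _) ht, fun χ k hk => ?_⟩
  have hgd : DifferentiableOn ℂ (fun s => LFunction χ ((3 / 4 + t * I) + s))
      (Metric.ball 0 (r + 1 / 8)) := fun s hs => by
    rw [Metric.mem_ball, dist_zero_right] at hs
    refine ((DirichletCharacter.differentiableAt_LFunction χ _ (Or.inl fun h => ?_)).comp s
      (differentiableAt_id.const_add _)).differentiableWithinAt
    have h1 := congrArg Complex.im h
    simp at h1
    linarith [le_max_right T₀ 1, (abs_le.1 ((Complex.abs_im_le_norm s).trans hs.le)).1]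
  have hsub : Metric.closedBall (0 : ℂ) r ⊆ Metric.ball 0 (r + 1 / 8) :=
    Metric.closedBall_subset_ball (by linarith)
  have hdiff : ‖iteratedDeriv k (fun s => LFunction χ ((3 / 4 + t * I) + s) - f χ s) 0‖ ≤
      k.factorial * η / r ^ k := by
    refine norm_iteratedDeriv_le_of_forall_mem_sphere_norm_le k hr0
      (((hgd.sub (hfd χ).differentiableOn).mono
        ((closure_ball (0 : ℂ) hr0.ne').trans_subset hsub)).diffContOnCl) fun s hs => ?_
    rw [add_comm, ← add_assoc]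
    exact (htu χ s (by simpa using Metric.sphere_subset_closedBall hs)).le
  have hg1 : ContDiffAt ℂ k (fun s => LFunction χ ((3 / 4 + t * I) + s)) 0 :=
    (hgd.analyticAt (Metric.isOpen_ball.mem_nhds (Metric.mem_ball_self (by linarith)))).contDiffAt
  rw [show (fun s => LFunction χ ((3 / 4 + t * I) + s) - f χ s) =
    (fun s => LFunction χ ((3 / 4 + t * I) + s)) - f χ from rfl,
    iteratedDeriv_sub hg1 (hfd χ).contDiff.contDiffAt, hjet χ k hk,
    iteratedDeriv_comp_const_add] at hdiff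
  simp only [add_zero] at hdiff
  have hbound : (k.factorial : ℝ) * η / r ^ k ≤ ε / 4 := by
    rw [div_le_iff₀ (by positivity), hη]
    have h1 : (k.factorial : ℝ) ≤ n.factorial := by exact_mod_cast Nat.factorial_le hk.le
    have h2 : r ^ n ≤ r ^ k := pow_le_pow_of_le_one hr0.le (by linarith) hk.le
    refine (mul_le_mul_of_nonneg_right h1 (by positivity)).trans ?_
    rw [mul_div_assoc', mul_div_cancel_left₀ _ (Nat.cast_ne_zero.2 n.factorial_ne_zero)]
    exact mul_le_mul_of_nonneg_left h2 (by linarith)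
  have hck : ‖c χ k - a χ k‖ ≤ ε / 2 := by
    rw [hc]
    simp only
    split_ifs with h
    · rw [h]; exact ha₀ χ
    · rw [sub_self, norm_zero]; linarith
  linarith [norm_sub_le_norm_sub_add_norm_sub
    (iteratedDeriv k (LFunction χ) (3 / 4 + t * I)) (c χ k) (a χ k)]

/-- The family of all `L^(j) (s, χ)`, `j < n`. -/
def jointJet (q : ℕ) [NeZero q] (n : ℕ) (s : ℂ) : DirichletCharacter ℂ q × Fin n → ℂ :=
  fun i => iteratedDeriv i.2 (LFunction i.1) s

theorem jointJet_dense (n : ℕ) (T₀ : ℝ) :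
    Dense ((fun t : ℝ => jointJet q n (3 / 4 + t * I)) '' Set.Ici T₀) := by
  have := Fintype.ofFinite (DirichletCharacter ℂ q)
  refine Metric.dense_iff.2 fun x ε hε => ?_
  obtain ⟨t, ht, htu⟩ :=
    exists_L_jets n (fun χ k => if h : k < n then x (χ, ⟨k, h⟩) else 0) hε T₀
  refine ⟨_, ?_, t, ht, rfl⟩
  rw [Metric.mem_ball, dist_pi_lt_iff hε]
  rintro ⟨χ, j⟩
  have := htu χ j j.2
  rwa [dif_pos j.2, Fin.eta, ← dist_eq_norm] at this

/-- **Functional independence**, with powers of `s`. -/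
theorem joint_independence {n m : ℕ} (F : ℕ → (DirichletCharacter ℂ q × Fin n → ℂ) → ℂ)
    (hF : ∀ k < m, Continuous (F k)) (T₀ : ℝ)
    (h : ∀ t : ℝ, T₀ ≤ t →
      ∑ k ∈ range m, (3 / 4 + t * I : ℂ) ^ k * F k (jointJet q n (3 / 4 + t * I)) = 0) :
    ∀ k < m, ∀ x, F k x = 0 := by
  induction m with
  | zero => exact fun k hk => absurd hk k.not_lt_zero
  | succ m ih =>
    have htop : ∀ x, F m x = 0 := by
      intro x
      by_contra hx
      obtain ⟨C, hC⟩ : ∃ C, C = ∑ k ∈ range m, (‖F k x‖ + 1) := ⟨_, rfl⟩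
      obtain ⟨c, hc⟩ : ∃ c, c = ‖F m x‖ / 2 := ⟨_, rfl⟩
      have hc0 : 0 < c := hc ▸ half_pos (norm_pos_iff.2 hx)
      have hlow : ∀ᶠ y in 𝓝 x, c < ‖F m y‖ :=
        ((hF m m.lt_succ_self).norm.tendsto x).eventually_const_lt
          (hc ▸ half_lt_self (norm_pos_iff.2 hx))
      have hup : ∀ᶠ y in 𝓝 x, ∀ k ∈ range m, ‖F k y‖ < ‖F k x‖ + 1 :=
        (eventually_all_finset _).2 fun k hk =>
          ((hF k (Nat.lt_succ_of_lt (mem_range.1 hk))).norm.tendsto x).eventually_lt_const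
            (lt_add_one _)
      obtain ⟨y, hy, t, ht, rfl⟩ := mem_closure_iff_nhds.1
        (jointJet_dense (q := q) n (max (max T₀ 1) (C / c)) x) _ (hlow.and hup)
      obtain ⟨hl, hu⟩ := hy
      rw [Set.mem_Ici, max_le_iff, max_le_iff] at ht
      obtain ⟨⟨htT, ht1⟩, htC⟩ := ht
      obtain ⟨s, hs⟩ : ∃ s, s = (3 / 4 + t * I : ℂ) := ⟨_, rfl⟩
      have hst : t ≤ ‖s‖ := by
        refine le_trans (le_of_eq ?_) ((le_abs_self _).trans (Complex.abs_im_le_norm s))
        simp [hs]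
      have hs1 : 1 ≤ ‖s‖ := ht1.trans hst
      have h0 := h t htT
      simp only at hl hu
      rw [← hs] at h0 hl hu
      rw [sum_range_succ, add_eq_zero_iff_eq_neg] at h0
      have hbound : ‖s‖ * (‖s‖ ^ m * ‖F m (jointJet q n s)‖) ≤ ‖s‖ ^ m * C := by
        rw [← norm_pow, ← norm_mul (s ^ m), ← norm_neg (s ^ m * _), ← h0, norm_pow]
        refine (mul_le_mul_of_nonneg_left (norm_sum_le _ _) (norm_nonneg s)).trans ?_
        rw [hC, mul_sum, mul_sum]
        refine sum_le_sum fun k hk => ?_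
        rw [norm_mul, norm_pow, ← mul_assoc, ← pow_succ']
        exact mul_le_mul (pow_le_pow_right₀ hs1 (mem_range.1 hk)) (hu k hk).le (norm_nonneg _)
          (by positivity)
      have hlt : ‖s‖ * ‖F m (jointJet q n s)‖ ≤ C :=
        le_of_mul_le_mul_left (by linarith) (pow_pos (by linarith) m)
      rw [div_le_iff₀ hc0] at htC
      nlinarith [mul_le_mul_of_nonneg_right hst hc0.le,
        mul_lt_mul_of_pos_left hl (show 0 < ‖s‖ by linarith)]
    intro k hk x
    rcases Nat.lt_succ_iff_lt_or_eq.1 hk with hlt | rfl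
    · refine ih (fun j hj => hF j (hj.trans m.lt_succ_self)) (fun t ht => ?_) k hlt x
      simpa [sum_range_succ, htop] using h t ht
    · exact htop x

end FA.Joint
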