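import Fermat.Agent.Voronin.Rearrangement
import Fermat.Agent.SiegelWalfisz.Applications
import Mathlib.NumberTheory.DirichletCharacter.Orthogonality
import Mathlib.NumberTheory.MulChar.Basic

/-!
# Joint rearrangement for the characters modulo `q`

The phases at the primes of each class prime to `q` are free, and every class is rich in primes, so
all `∑ log (1 - χ p z p p^(-(3/4 + s)))⁻¹` can be prescribed at once by orthogonality.
-/

set_option autoImplicit false

noncomputable section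

namespace FA.Joint

open Filter Finset Complex
open FA.Voronin (Coords primeVec primePower evalCoord PrimeRich)
open scoped Topology ComplexConjugate

variable {q : ℕ} [NeZero q]

/-- The class of `a` among the natural numbers. -/
def residueSet (a : (ZMod q)ˣ) : Set ℕ := {n | (n : ZMod q) = a}

theorem primeRich_residueSet (a : (ZMod q)ˣ) : PrimeRich (residueSet a) := by
  classical
  obtain ⟨c, C, hc, hC, h⟩ := FA.SiegelWalfisz.exists_thetaClass_error 1 one_pos
  refine FA.Voronin.primeRich_of_error _ (κ := (q.totient : ℝ)⁻¹) (e := 1 / 15)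
    (inv_pos.2 (Nat.cast_pos.2 (Nat.totient_pos.2 (NeZero.pos q)))) hc hC (by norm_num) ?_
  filter_upwards [Real.tendsto_log_atTop.eventually_ge_atTop (q : ℝ), eventually_ge_atTop (2 : ℝ)]
    with y hy hy2
  refine le_of_eq_of_le ?_ (h q (a : ZMod q) a.isUnit y hy2 (by rwa [Real.rpow_one]))
  rw [PNT.thetaClass]
  congr 3
  ext p
  simp [residueSet, Nat.one_le_iff_ne_zero, Nat.pos_iff_ne_zero]

open Classical in
/-- Orthogonality over the units. -/
theorem sum_units_mul_conj (χ ψ : DirichletCharacter ℂ q) :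
    ∑ a : (ZMod q)ˣ, χ a * conj (ψ a) = if χ = ψ then (Fintype.card (ZMod q)ˣ : ℂ) else 0 := by
  classical
  split_ifs with h
  · subst h
    rw [sum_congr rfl fun a _ => by
      rw [Complex.mul_conj', DirichletCharacter.unit_norm_eq_one, Complex.ofReal_one, one_pow],
      sum_const, card_univ, nsmul_eq_mul, mul_one]
  · have hne : χ * ψ⁻¹ ≠ 1 := fun h' => h (mul_inv_eq_one.1 h')
    rw [← MulChar.sum_eq_zero_of_ne_one hne]
    refine Finset.sum_bij_ne_zero (fun a _ _ => (a : ZMod q)) (fun a _ _ => mem_univ _)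
      (fun a _ _ b _ _ hab => Units.ext hab) (fun x _ hx => ?_) fun a _ _ => ?_
    · obtain ⟨a, rfl⟩ : IsUnit x := by
        by_contra hu
        exact hx (MulChar.map_nonunit _ hu)
      refine ⟨a, mem_univ _, ?_, rfl⟩
      rw [MulChar.coeToFun_mul, Pi.mul_apply, ← MulChar.star_apply'] at hx
      simpa using hx
    · rw [MulChar.coeToFun_mul, Pi.mul_apply, ← MulChar.star_apply']
      rfl

omit [NeZero q] in
theorem norm_twist_le {r : ℝ} {s : ℂ} (hs : ‖s‖ ≤ r) (χ : DirichletCharacter ℂ q) {p : ℕ}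
    (hp : p.Prime) : ‖χ p * primePower s p‖ ≤ (p : ℝ) ^ (r - 3 / 4) := by
  rw [norm_mul]
  exact (mul_le_of_le_one_left (norm_nonneg _) (χ.norm_le_one _)).trans
    (FA.Voronin.norm_primePower_le hs hp)

omit [NeZero q] in
theorem norm_twist_lt_one {s : ℂ} (hs : ‖s‖ < 1 / 4) (χ : DirichletCharacter ℂ q) (n : ℕ) :
    ‖χ n * primePower s n‖ < 1 := by
  rw [norm_mul]
  exact (mul_le_of_le_one_left (norm_nonneg _) (χ.norm_le_one _)).trans_lt
    (FA.Voronin.norm_primePower_lt_one hs n)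

/-- **The joint theorem on rearrangements.** -/
theorem exists_jointPhases {r R' : ℝ} (hr : 0 ≤ r) (hr4 : r < 1 / 4) (hrR : r < R')
    {h : DirichletCharacter ℂ q → ℂ → ℂ} (hh : ∀ χ, DifferentiableOn ℂ (h χ) (Metric.ball 0 R'))
    {ε : ℝ} (hε : 0 < ε) (N₀ : ℕ) :
    ∃ M₀, N₀ ≤ M₀ ∧ ∀ M, M₀ ≤ M → ∃ z : ℕ → ℂ, (∀ n, ‖z n‖ = 1) ∧
      ∀ (χ : DirichletCharacter ℂ q) (s : ℂ), ‖s‖ ≤ r →
        ‖∑ n ∈ range M, log (1 - z n * (χ n * primePower s n))⁻¹ - h χ s‖ < ε := by
  classical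
  obtain ⟨ρ, hrρ, hρ⟩ := exists_between (lt_min hr4 hrR)
  obtain ⟨R, hrR₁, hRρ⟩ := exists_between hrρ
  have hR0 : 0 < R := hr.trans_lt hrR₁
  have hρ4 : ρ < 1 / 4 := hρ.trans_le (min_le_left _ _)
  have hR4 : R < 1 / 4 := hRρ.trans hρ4
  obtain ⟨θ, hθ⟩ : ∃ θ, θ = r / R := ⟨_, rfl⟩
  have hθ1 : θ < 1 := hθ ▸ (div_lt_one hR0).2 hrR₁
  obtain ⟨φ', hφ⟩ : ∃ φ' : ℕ, φ' = Fintype.card (ZMod q)ˣ := ⟨_, rfl⟩
  have hφ0 : 0 < (φ' : ℝ) := hφ ▸ Nat.cast_pos.2 Fintype.card_pos
  -- the cut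
  have hsq := FA.Voronin.summable_norm_sq_primeVec hR0.le hR4
  have hpw := Real.summable_nat_rpow.2 (show 2 * r - 3 / 2 < -1 by linarith)
  obtain ⟨δ, hδ⟩ : ∃ δ, δ = ε * (1 - θ) / (8 * φ') := ⟨_, rfl⟩
  have hδ0 : 0 < δ := hδ ▸ by
    have : 0 < 1 - θ := sub_pos.2 hθ1
    positivity
  obtain ⟨N₁, hN₁⟩ := eventually_atTop.1 ((((tendsto_sum_nat_add
    fun n => ‖primeVec R n‖ ^ 2)).eventually (eventually_le_nhds (pow_pos hδ0 2))).and
    ((tendsto_sum_nat_add fun n : ℕ => (n : ℝ) ^ (2 * r - 3 / 2)).eventually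
      (eventually_le_nhds (show (0 : ℝ) < ε / 8 by positivity))))
  obtain ⟨N, hN⟩ : ∃ N, N = max N₀ (max N₁ 16) := ⟨_, rfl⟩
  obtain ⟨hNv, hNp⟩ := hN₁ N (hN ▸ (le_max_left _ _).trans (le_max_right _ _))
  have hN16 : 16 ≤ N := hN ▸ (le_max_right _ _).trans (le_max_right _ _)
  have htail : ∀ {F : ℕ → ℝ}, (∀ n, 0 ≤ F n) → Summable F → ∀ M,
      ∑ n ∈ Ico N M, F n ≤ ∑' n, F (n + N) := fun {F} h0 hF M => by
    rw [sum_Ico_eq_sum_range]
    simp only [add_comm N]
    exact ((summable_nat_add_iff N).2 hF).sum_le_tsum _ fun n _ => h0 _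
  -- the heads
  obtain ⟨H, hH⟩ : ∃ H : DirichletCharacter ℂ q → ℂ → ℂ,
      H = fun χ s => h χ s - ∑ n ∈ range N, log (1 - χ n * primePower s n)⁻¹ := ⟨_, rfl⟩
  have hHd : ∀ χ, DifferentiableOn ℂ (H χ) (Metric.ball 0 ρ) := fun χ => by
    rw [hH]
    refine ((hh χ).mono (Metric.ball_subset_ball (hρ.trans_le (min_le_right _ _)).le)).sub
      (DifferentiableOn.fun_sum fun n _ => ?_)
    intro s hs
    rw [Metric.mem_ball, dist_zero_right] at hs
    have hlt := norm_twist_lt_one (hs.trans hρ4) χ n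
    have hne : 1 - χ n * primePower s n ≠ 0 := fun h0 => by
      rw [← sub_eq_zero.1 h0, norm_one] at hlt
      linarith
    have hmem : (1 - χ n * primePower s n)⁻¹ ∈ Complex.slitPlane := Or.inl (by
      have h1 := (Complex.re_le_norm (χ n * primePower s n)).trans_lt hlt
      rw [Complex.inv_re]
      exact div_pos (by simp only [Complex.sub_re, Complex.one_re]; linarith)
        (Complex.normSq_pos.2 hne))
    have hd : DifferentiableAt ℂ (fun w => χ n * primePower w n) s := by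
      refine (differentiableAt_const _).mul ?_
      unfold FA.Voronin.primePower
      split_ifs with hp
      · exact DifferentiableAt.const_cpow (by fun_prop) (Or.inl (Nat.cast_ne_zero.2 hp.ne_zero))
      · exact differentiableAt_const _
    exact ((((differentiableAt_const (1 : ℂ)).sub hd).inv hne).clog hmem).differentiableWithinAt
  obtain ⟨G, hG⟩ : ∃ G : (ZMod q)ˣ → ℂ → ℂ,
      G = fun (a : (ZMod q)ˣ) s =>
        (φ' : ℂ)⁻¹ * ∑ χ : DirichletCharacter ℂ q, conj (χ a) * H χ s := ⟨_, rfl⟩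
  have hGd : ∀ a, DifferentiableOn ℂ (G a) (Metric.ball 0 ρ) := fun a => by
    rw [hG]
    exact (DifferentiableOn.fun_sum fun χ _ => (hHd χ).const_mul _).const_mul _
  have hHG : ∀ χ s, H χ s = ∑ a : (ZMod q)ˣ, χ a * G a s := fun χ s => by
    have e : ∀ a : (ZMod q)ˣ, χ a * G a s =
        ∑ ψ : DirichletCharacter ℂ q, (φ' : ℂ)⁻¹ * (χ a * conj (ψ a)) * H ψ s := fun a => by
      rw [hG]
      simp only [mul_sum]
      exact sum_congr rfl fun ψ _ => by ring
    rw [sum_congr rfl fun a _ => e a, sum_comm]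
    simp only [← sum_mul, ← mul_sum, sum_units_mul_conj, mul_ite, mul_zero, ite_mul, zero_mul,
      sum_ite_eq, mem_univ, if_true, ← hφ]
    rw [inv_mul_cancel₀ (Nat.cast_ne_zero.2 (Nat.cast_pos.1 hφ0).ne'), one_mul]
  choose g hg using fun a => FA.Voronin.exists_evalCoord_eq hR0 hRρ (hGd a)
  choose M' hM'N hM' using fun a => FA.Voronin.exists_unit_approx (primeRich_residueSet a) hR0 hR4
    (g a) hδ0 (N := N) fun M => (htail (fun n => sq_nonneg _) hsq M).trans hNv
  obtain ⟨M₀, hM₀⟩ : ∃ M₀, M₀ = max N (univ.sup M') := ⟨_, rfl⟩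
  refine ⟨M₀, hM₀ ▸ (hN ▸ le_max_left N₀ _).trans (le_max_left _ _), fun M hM => ?_⟩
  have hNM : N ≤ M := (hM₀ ▸ le_max_left _ _).trans hM
  choose z hz hle using fun a => hM' a M ((le_sup (mem_univ a)).trans
    ((hM₀ ▸ le_max_right _ _).trans hM))
  obtain ⟨w, hw⟩ : ∃ w : ℕ → ℂ, w = fun n =>
      if n < N then 1 else if hu : IsUnit (n : ZMod q) then z hu.unit n else 1 := ⟨_, rfl⟩
  have hw1 : ∀ n, ‖w n‖ = 1 := fun n => by
    rw [hw]
    simp only
    split_ifs with h1 h2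
    · exact norm_one
    · exact hz _ n
    · exact norm_one
  refine ⟨w, hw1, fun χ s hs => ?_⟩
  rw [← sum_range_add_sum_Ico _ hNM,
    sum_congr rfl (g := fun n : ℕ => log (1 - χ n * primePower s n)⁻¹)
    fun n hn => by rw [hw]; simp only [mem_range.1 hn, if_true, one_mul]]
  have hqs : ‖s / (R : ℂ)‖ ≤ θ := by
    rw [norm_div, Complex.norm_real, Real.norm_of_nonneg hR0.le, hθ]
    exact div_le_div_of_nonneg_right hs hR0.le
  obtain ⟨Z, hZ⟩ : ∃ Z, Z = ∑ n ∈ Ico N M, w n * (χ n * primePower s n) := ⟨_, rfl⟩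
  have hlin : ‖H χ s - Z‖ ≤ ε / 4 := by
    have hsplit : Z = ∑ a : (ZMod q)ˣ, χ a *
        ∑ n ∈ Ico N M, z a n * (residueSet a).indicator (primePower s) n := by
      simp only [mul_sum]
      rw [hZ, sum_comm]
      refine sum_congr rfl fun n hn => ?_
      rw [hw]
      simp only [not_lt.2 (mem_Ico.1 hn).1, if_false]
      by_cases hu : IsUnit (n : ZMod q)
      · rw [dif_pos hu, sum_eq_single hu.unit (fun b _ hb => ?_) (fun h => absurd (mem_univ _) h),
          Set.indicator_of_mem (show n ∈ residueSet hu.unit from rfl), IsUnit.unit_spec]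
        · ring
        · rw [Set.indicator_of_notMem (fun hmem => hb (Units.ext (hmem.symm.trans
            hu.unit_spec.symm))), mul_zero, mul_zero]
      · rw [MulChar.map_nonunit _ hu, zero_mul, mul_zero, sum_eq_zero fun a _ => ?_]
        rw [Set.indicator_of_notMem (show n ∉ residueSet a from
          fun hmem : (n : ZMod q) = a => hu (hmem ▸ a.isUnit)), mul_zero, mul_zero]
    rw [hsplit, hHG, ← sum_sub_distrib]
    refine (norm_sum_le _ _).trans ((sum_le_card_nsmul _ _ (ε / (4 * φ')) fun a _ => ?_).trans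
      (le_of_eq ?_))
    · rw [← mul_sub, norm_mul, DirichletCharacter.unit_norm_eq_one, one_mul]
      have h1 := FA.Voronin.norm_evalCoord_le hθ1 hqs
        (g a - ∑ n ∈ Ico N M, z a n • (residueSet a).indicator (primeVec R) n)
      rw [FA.Voronin.evalCoord_sub (hqs.trans_lt hθ1),
        FA.Voronin.evalCoord_sum (hqs.trans_lt hθ1), hg a s (hs.trans_lt hrR₁)] at h1
      have e : ∀ n, evalCoord (s / R) ((residueSet a).indicator (primeVec R) n) =
          (residueSet a).indicator (primePower s) n := fun n => by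
        by_cases hn : n ∈ residueSet a
        · rw [Set.indicator_of_mem hn, Set.indicator_of_mem hn,
            FA.Voronin.evalCoord_primeVec hR0]
        · rw [Set.indicator_of_notMem hn, Set.indicator_of_notMem hn]
          simp [FA.Voronin.evalCoord]
      simp only [e] at h1
      refine h1.trans ((div_le_div_of_nonneg_right (hle a) (sub_pos.2 hθ1).le).trans (le_of_eq ?_))
      rw [hδ]
      field_simp [(sub_pos.2 hθ1).ne']
      ring
    · rw [card_univ, ← hφ, nsmul_eq_mul]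
      field_simp
  have hquad : ‖∑ n ∈ Ico N M, (log (1 - w n * (χ n * primePower s n))⁻¹ -
      w n * (χ n * primePower s n))‖ ≤ ε / 8 := by
    refine (norm_sum_le _ _).trans ((sum_le_sum fun n hn => ?_).trans
      ((htail (fun n => by positivity) hpw M).trans hNp))
    by_cases hp : n.Prime
    · have hn16 : 16 ≤ n := hN16.trans (mem_Ico.1 hn).1
      have ha : ‖w n * (χ n * primePower s n)‖ ≤ (n : ℝ) ^ (r - 3 / 4) := by
        rw [norm_mul, hw1, one_mul]
        exact norm_twist_le hs χ hp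
      have hhalf : (n : ℝ) ^ (r - 3 / 4) ≤ 1 / 2 := by
        refine (Real.rpow_le_rpow_of_exponent_le (by exact_mod_cast hp.one_le)
          (show r - 3 / 4 ≤ -(1 / 2) by linarith)).trans ?_
        rw [Real.rpow_neg (Nat.cast_nonneg n), ← Real.sqrt_eq_rpow, one_div]
        refine inv_anti₀ two_pos (Real.le_sqrt_of_sq_le ?_)
        have : (16 : ℝ) ≤ n := by exact_mod_cast hn16
        linarith
      obtain ⟨y, hy⟩ : ∃ y, y = ‖w n * (χ n * primePower s n)‖ := ⟨_, rfl⟩
      refine (Complex.norm_log_one_sub_inv_sub_self_le (by linarith)).trans ?_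
      rw [← hy] at ha ⊢
      have h2 : (1 - y)⁻¹ ≤ 2 := by
        rw [inv_le_comm₀ (by linarith) two_pos]; linarith
      calc y ^ 2 * (1 - y)⁻¹ / 2 ≤ y ^ 2 := by nlinarith [sq_nonneg y]
        _ ≤ ((n : ℝ) ^ (r - 3 / 4)) ^ 2 := pow_le_pow_left₀ (hy ▸ norm_nonneg _) ha 2
        _ = _ := by
          rw [← Real.rpow_natCast, ← Real.rpow_mul (Nat.cast_nonneg n)]
          push_cast
          ring_nf
    · simp [primePower, hp]
      positivity
  rw [sum_sub_distrib, ← hZ] at hquad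
  rw [hH] at hlin
  simp only at hlin
  obtain ⟨L₁, hL₁⟩ : ∃ L₁, L₁ = ∑ n ∈ range N, log (1 - χ n * primePower s n)⁻¹ := ⟨_, rfl⟩
  obtain ⟨L₂, hL₂⟩ : ∃ L₂, L₂ = ∑ n ∈ Ico N M, log (1 - w n * (χ n * primePower s n))⁻¹ :=
    ⟨_, rfl⟩
  rw [← hL₁] at hlin
  rw [← hL₂] at hquad
  rw [← hL₁, ← hL₂]
  calc ‖L₁ + L₂ - h χ s‖ = ‖(L₂ - Z) - (h χ s - L₁ - Z)‖ := by ring_nf
    _ ≤ ε / 8 + ε / 4 := (norm_sub_le _ _).trans (add_le_add hquad hlin)
    _ < ε := by linarith

end FA.Joint
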