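import Fermat.Agent.Joint.Circle
import Fermat.Agent.Joint.Phases
import Fermat.Agent.Voronin.Main

/-!
# Joint universality of the Dirichlet `L`-functions modulo `q`

For a good height `t` the phases `p^(-it)` are near those of the joint rearrangement theorem and
all `L (s, χ) ∏_{p < M} (1 - χ p p^(-s))` are near `1` on the whole disc around `3/4 + it`.
-/

set_option autoImplicit false

noncomputable section

namespace FA.Joint

open Finset Filter Complex MeasureTheory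
open FA.BohrCourant (dmono focus tailSum)
open FA.Voronin (phaseProd continuous_phaseProd primePower exists_phase_density)
open DirichletCharacter (LFunction)
open scoped Topology Real ComplexConjugate

variable {q : ℕ} [NeZero q]

omit [NeZero q] in
theorem norm_twist_primePower_lt_one {P : Finset ℕ} (hP : ∀ p ∈ P, p.Prime) {z : ℕ → ℂ}
    (hz : ∀ n, ‖z n‖ = 1) (χ : DirichletCharacter ℂ q) {s : ℂ} (hs : ‖s‖ < 1 / 4) (i : P) :
    ‖χ i * z i * (i : ℂ) ^ (-(3 / 4 + s))‖ < 1 := by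
  have h := norm_twist_lt_one hs χ i
  rw [primePower, if_pos (hP i i.2)] at h
  rwa [mul_comm (χ i), mul_assoc, norm_mul, hz, one_mul]

theorem charDevFun_eq_phaseProd (P : Finset ℕ) (hP : ∀ p ∈ P, p.Prime)
    (χ : DirichletCharacter ℂ q) (s : ℂ) (t : ℝ) :
    charDevFun P χ (3 / 4 + t * I + s) =
      LFunction χ (3 / 4 + t * I + s) * phaseProd P (fun i => χ i * dmono i t) s - 1 := by
  rw [charDevFun, phaseProd]
  congr 2
  refine prod_congr rfl fun i _ => ?_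
  rw [mul_assoc, dmono, ← Complex.cpow_add _ _ (Nat.cast_ne_zero.2 (hP i i.2).ne_zero)]
  ring_nf

/-- **Joint universality for exponentials**, the phases at the primes dividing `q` near `1`. -/
theorem exists_L_near_exp {r R' : ℝ} (hr : 0 ≤ r) (hr4 : r < 1 / 4) (hrR : r < R')
    {h : DirichletCharacter ℂ q → ℂ → ℂ} (hh : ∀ χ, DifferentiableOn ℂ (h χ) (Metric.ball 0 R'))
    {ε : ℝ} (hε : 0 < ε) (T₀ : ℝ) :
    ∃ c : ℝ, 0 < c ∧ ∀ᶠ T : ℝ in atTop, c * T ≤ volume.real {t ∈ Set.Icc T₀ T |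
      (∀ (χ : DirichletCharacter ℂ q) (s : ℂ), ‖s‖ ≤ r →
        ‖LFunction χ (s + 3 / 4 + t * I) - cexp (h χ s)‖ < ε) ∧
      ∀ p ∈ q.primeFactors, ‖dmono p t - 1‖ < ε} := by
  classical
  obtain ⟨ρ, hrρ, hρ⟩ := exists_between hr4
  have hρ0 : 0 < ρ := hr.trans_lt hrρ
  have hK : IsCompact (Metric.closedBall (0 : ℂ) r) := isCompact_closedBall 0 r
  choose B' hB' using fun χ => hK.exists_bound_of_continuousOn
    (((hh χ).continuousOn.mono (Metric.closedBall_subset_ball hrR)).cexp)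
  have hB0' : ∀ χ, 0 ≤ B' χ := fun χ =>
    (norm_nonneg _).trans (hB' χ 0 (Metric.mem_closedBall_self hr))
  obtain ⟨B, hBdef⟩ : ∃ B, B = ∑ χ, B' χ := ⟨_, rfl⟩
  have hB0 : 0 ≤ B := hBdef ▸ sum_nonneg fun χ _ => hB0' χ
  have hB : ∀ χ, ∀ s : ℂ, ‖s‖ ≤ r → ‖cexp (h χ s)‖ ≤ B := fun χ s hs =>
    (hB' χ s (by simpa using hs)).trans (hBdef ▸ single_le_sum (fun ψ _ => hB0' ψ) (mem_univ χ))
  -- the phases
  obtain ⟨ε₁, hε₁0, hε₁1, hε₁⟩ : ∃ ε₁, 0 < ε₁ ∧ ε₁ ≤ 1 ∧ B * (2 * ε₁) ≤ ε / 4 := by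
    refine ⟨min 1 (ε / 4 / (2 * (B + 1))), lt_min one_pos (by positivity), min_le_left _ _, ?_⟩
    refine (mul_le_mul_of_nonneg_left (mul_le_mul_of_nonneg_left (min_le_right _ _)
      zero_le_two) hB0).trans ?_
    rw [← mul_assoc, mul_div_assoc', div_le_iff₀ (by positivity)]
    nlinarith
  obtain ⟨η₁, hη₁0, hη₁⟩ : ∃ η₁, 0 < η₁ ∧ η₁ * (B + ε) ≤ ε / 4 :=
    ⟨ε / 4 / (B + ε), by positivity, (div_mul_cancel₀ _ (by positivity)).le⟩
  obtain ⟨η₂, hη₂⟩ : ∃ η₂, η₂ = η₁ ^ 2 * (2 * π) * ((ρ - r) / ρ) := ⟨_, rfl⟩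
  have hη₂0 : 0 < η₂ := hη₂ ▸ by
    have := sub_pos.2 hrρ
    positivity
  obtain ⟨C, hC⟩ : ∃ C : ℝ, C = (Fintype.card (DirichletCharacter ℂ q) : ℝ) := ⟨_, rfl⟩
  have hC0 : 0 < C := hC ▸ Nat.cast_pos.2 Fintype.card_pos
  obtain ⟨M₁, hM₁⟩ := eventually_atTop.1 ((FA.BohrCourant.tendsto_tailSum (3 / 4 - ρ)).eventually
    (eventually_le_nhds (show (0 : ℝ) < η₂ / (100 * π * C) by positivity)))
  obtain ⟨M₀, hM₀N, hM₀⟩ := exists_jointPhases hr hr4 hrR hh hε₁0 (max (M₁ + 1) (q + 1))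
  rw [max_le_iff] at hM₀N
  obtain ⟨z, hz, hzq, hzh⟩ : ∃ z : ℕ → ℂ, (∀ n, ‖z n‖ = 1) ∧
      (∀ p ∈ q.primeFactors, z p = 1) ∧ ∀ (χ : DirichletCharacter ℂ q) (s : ℂ), ‖s‖ ≤ r →
        ‖∑ n ∈ range M₀, log (1 - z n * (χ n * primePower s n))⁻¹ - h χ s‖ < ε₁ := by
    obtain ⟨z, hz, hzh⟩ := hM₀ M₀ le_rfl
    refine ⟨fun n => if n ∈ q.primeFactors then 1 else z n, fun n => ?_,
      fun p hp => if_pos hp, fun χ s hs => ?_⟩
    · simp only
      split_ifs
      · exact norm_one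
      · exact hz n
    · refine lt_of_eq_of_lt ?_ (hzh χ s hs)
      congr 2
      refine sum_congr rfl fun n _ => ?_
      simp only
      split_ifs with hn
      · have h0 : χ (n : ZMod q) = 0 := MulChar.map_nonunit χ fun hu =>
          (Nat.prime_of_mem_primeFactors hn).coprime_iff_not_dvd.1
            ((ZMod.isUnit_iff_coprime n q).1 hu) (Nat.dvd_of_mem_primeFactors hn)
        simp [h0]
      · rfl
  obtain ⟨P, hPd⟩ : ∃ P, P = (range M₀).filter Nat.Prime := ⟨_, rfl⟩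
  have hP : ∀ p ∈ P, p.Prime := fun p hp => (mem_filter.1 (hPd ▸ hp)).2
  have hqP : q.primeFactors ⊆ P := fun p hp => by
    have h1 := Nat.le_of_mem_primeFactors hp
    exact hPd ▸ mem_filter.2 ⟨mem_range.2 (by omega), Nat.prime_of_mem_primeFactors hp⟩
  have hcover : ∀ n, 2 ≤ n → n ≤ M₁ → ∃ p ∈ P, p ∣ n := fun n h2 hn => by
    refine ⟨n.minFac, hPd ▸ mem_filter.2 ⟨mem_range.2 ?_, Nat.minFac_prime (by omega)⟩,
      Nat.minFac_dvd n⟩
    have := Nat.minFac_le (show 0 < n by omega)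
    omega
  -- the values at the phases
  obtain ⟨w, hw⟩ : ∃ w : DirichletCharacter ℂ q → (P → ℂ) → P → ℂ,
      w = fun χ u i => χ i * u i := ⟨_, rfl⟩
  obtain ⟨u₀, hu₀⟩ : ∃ u₀ : P → ℂ, u₀ = fun (i : P) => z i := ⟨_, rfl⟩
  have hne : ∀ χ, ∀ s : ℂ, ‖s‖ ≤ r → ∀ i : P,
      1 - w χ u₀ i * (i : ℂ) ^ (-(3 / 4 + s)) ≠ 0 := by
    intro χ s hs i h0
    have h1 := norm_twist_primePower_lt_one hP hz χ (hs.trans_lt hr4) i
    rw [hw, hu₀] at h0
    rw [← sub_eq_zero.1 h0, norm_one] at h1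
    exact lt_irrefl _ h1
  have hQ0 : ∀ χ, ∀ s : ℂ, ‖s‖ ≤ r → phaseProd P (w χ u₀) s ≠ 0 := fun χ s hs =>
    prod_ne_zero_iff.2 fun i _ => hne χ s hs i
  have hval : ∀ χ, ∀ s : ℂ, ‖s‖ ≤ r →
      ‖(phaseProd P (w χ u₀) s)⁻¹ - cexp (h χ s)‖ ≤ ε / 4 := by
    intro χ s hs
    have hlog : cexp (∑ n ∈ range M₀, log (1 - z n * (χ n * primePower s n))⁻¹) =
        (phaseProd P (w χ u₀) s)⁻¹ := by
      rw [phaseProd, ← prod_inv_distrib,
        ← prod_congr rfl fun i _ => Complex.exp_log (inv_ne_zero (hne χ s hs i)), ← Complex.exp_sum,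
        sum_coe_sort_eq_attach, hw, hu₀,
        sum_attach P fun n : ℕ => log (1 - χ n * z n * (n : ℂ) ^ (-(3 / 4 + s)))⁻¹, hPd, sum_filter]
      congr 1
      refine sum_congr rfl fun n _ => ?_
      unfold primePower
      split_ifs
      · rw [mul_left_comm, mul_assoc]
      · simp
    rw [← hlog]
    obtain ⟨a, ha⟩ : ∃ a, a = ∑ n ∈ range M₀, log (1 - z n * (χ n * primePower s n))⁻¹ := ⟨_, rfl⟩
    have hda : ‖a - h χ s‖ ≤ ε₁ := ha ▸ (hzh χ s hs).le
    rw [← ha, show cexp a - cexp (h χ s) = cexp (h χ s) * (cexp (a - h χ s) - 1) by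
      rw [mul_sub, ← Complex.exp_add, mul_one, add_sub_cancel], norm_mul]
    exact (mul_le_mul (hB χ s hs)
      ((Complex.norm_exp_sub_one_le (hda.trans hε₁1)).trans
        (mul_le_mul_of_nonneg_left hda zero_le_two)) (norm_nonneg _) hB0).trans hε₁
  -- continuity in the phases
  obtain ⟨d, hd0, hd⟩ : ∃ d, 0 < d ∧ ∀ u : P → ℂ, (∀ i, ‖u i - u₀ i‖ < d) → ∀ χ, ∀ s : ℂ,
      ‖s‖ ≤ r → ‖(phaseProd P (w χ u) s)⁻¹ - (phaseProd P (w χ u₀) s)⁻¹‖ < ε / 4 ∧
        phaseProd P (w χ u) s ≠ 0 := by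
    have hev : ∀ᶠ u in 𝓝 u₀, ∀ χ, ∀ s ∈ Metric.closedBall (0 : ℂ) r,
        ‖(phaseProd P (w χ u) s)⁻¹ - (phaseProd P (w χ u₀) s)⁻¹‖ < ε / 4 ∧
          phaseProd P (w χ u) s ≠ 0 := by
      refine eventually_all.2 fun χ => hK.eventually_forall_of_forall_eventually fun s hs => ?_
      rw [Metric.mem_closedBall, dist_zero_right] at hs
      have hwc : Continuous (w χ) := hw ▸ continuous_pi fun i =>
        continuous_const.mul (continuous_apply i)
      have hc : ContinuousAt (fun x : (P → ℂ) × ℂ => phaseProd P (w χ x.1) x.2) (u₀, s) :=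
        ((continuous_phaseProd P hP).comp
          ((hwc.comp continuous_fst).prodMk continuous_snd)).continuousAt
      have hc₀ : ContinuousAt (fun x : (P → ℂ) × ℂ => phaseProd P (w χ u₀) x.2) (u₀, s) :=
        ((continuous_phaseProd P hP).comp
          ((continuous_const (y := w χ u₀)).prodMk continuous_snd)).continuousAt
      have h1 := ((hc.inv₀ (hQ0 χ s hs)).sub (hc₀.inv₀ (hQ0 χ s hs))).norm
      refine (h1.eventually_lt_const (u := ε / 4) ?_).and (hc.eventually_ne (hQ0 χ s hs))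
      simp
      positivity
    obtain ⟨d, hd, hd'⟩ := Metric.eventually_nhds_iff.1 hev
    exact ⟨d, hd, fun u hu χ s hs => hd' (y := u)
      ((dist_pi_lt_iff hd).2 fun i => by rw [dist_eq_norm]; exact hu i) χ s
      (by rwa [Metric.mem_closedBall, dist_zero_right])⟩
  -- a good height
  have hρ1 : |ρ| < 1 := by rw [abs_of_pos hρ0]; linarith
  obtain ⟨c, hc, hev⟩ := exists_phase_density (P := P) hP hz (lt_min hd0 hε) (max T₀ 3)
    (G := fun t => ∑ χ : DirichletCharacter ℂ q, charRingMean P χ ρ t / η₂)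
    (fun t => sum_nonneg fun χ _ => div_nonneg (charRingMean_nonneg P χ ρ t) hη₂0.le)
    (continuous_finsetSum _ fun χ _ => (continuous_charRingMean P hP χ hρ1).div_const _)
    fun K => by
      filter_upwards [eventually_all.2 fun χ : DirichletCharacter ℂ q =>
          eventually_charRingMean_le P hP hqP χ hρ0.le hρ K hcover
            (show 0 < ((K : ℝ) + 1) ^ P.card * η₂ / (100 * π * C) by positivity),
        eventually_ge_atTop (0 : ℝ)] with T hT hT0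
      simp only [mul_sum, ← mul_div_assoc]
      rw [intervalIntegral.integral_finsetSum
        (f := fun χ t => ‖focus P K z t‖ ^ 2 * charRingMean P χ ρ t / η₂) fun χ _ =>
          ((((FA.BohrCourant.continuous_localProd P hP K _).norm.pow 2).mul
            (continuous_charRingMean P hP χ hρ1)).div_const _).intervalIntegrable _ _]
      simp only [intervalIntegral.integral_div]
      rw [← sum_div, div_le_iff₀ hη₂0]
      refine (sum_le_card_nsmul _ _ _ fun χ _ => hT χ z hz).trans ?_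
      rw [card_univ, nsmul_eq_mul, ← hC]
      have htail := hM₁ M₁ le_rfl
      rw [le_div_iff₀ (by positivity)] at htail
      have e : ((K : ℝ) + 1) ^ P.card * η₂ / (100 * π * C) * (100 * π * C) =
          ((K : ℝ) + 1) ^ P.card * η₂ := div_mul_cancel₀ _ (by positivity)
      nlinarith [mul_le_mul_of_nonneg_left htail
        (show 0 ≤ ((K : ℝ) + 1) ^ P.card * T by positivity),
        mul_nonneg (show 0 ≤ ((K : ℝ) + 1) ^ P.card * T by positivity) hη₂0.le]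
  refine ⟨c, hc, hev.mono fun T hT => hT.trans (measureReal_mono ?_ ?_)⟩
  swap
  · exact ((measure_mono fun t ht => ht.1).trans_lt measure_Icc_lt_top).ne
  rintro t ⟨⟨hlo, htT⟩, hGt, hphase⟩
  rw [max_le_iff] at hlo
  refine ⟨⟨hlo.1, htT⟩, fun χ s hs => ?_, fun p hp => ?_⟩
  swap
  · have h1 := hphase ⟨p, hqP hp⟩
    simp only [hzq p hp] at h1
    exact h1.trans_le (min_le_right _ _)
  have ht3 := hlo.2
  obtain ⟨hinv, hQne⟩ := hd (fun i => dmono i t)
    (fun i => hu₀ ▸ (hphase i).trans_le (min_le_left _ _)) χ s hs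
  have hGχ : charRingMean P χ ρ t < η₂ := by
    refine (div_lt_one hη₂0).1 (lt_of_le_of_lt ?_ hGt)
    exact single_le_sum (f := fun ψ => charRingMean P ψ ρ t / η₂)
      (fun ψ _ => div_nonneg (charRingMean_nonneg P ψ ρ t) hη₂0.le) (mem_univ χ)
  have hdev : ‖charDevFun P χ (3 / 4 + t * I + s)‖ ≤ η₁ := by
    refine le_of_pow_le_pow_left₀ two_ne_zero hη₁0.le
      ((norm_charDevFun_sq_le P hP χ hrρ (by linarith) ht3 hs).trans ?_)
    refine (mul_le_mul_of_nonneg_left hGχ.le (by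
      have := sub_pos.2 hrρ
      positivity)).trans (le_of_eq ?_)
    rw [hη₂]
    field_simp [(sub_pos.2 hrρ).ne']
  rw [hw] at hinv hQne
  obtain ⟨Q, hQ⟩ : ∃ Q, Q = phaseProd P (fun i => χ i * dmono i t) s := ⟨_, rfl⟩
  rw [charDevFun_eq_phaseProd P hP, ← hQ] at hdev
  simp only [← hQ] at hinv hQne
  have hv := hval χ s hs
  rw [hw] at hv
  have hQw : ‖Q⁻¹ - cexp (h χ s)‖ < ε / 2 := by
    linarith [norm_sub_le_norm_sub_add_norm_sub Q⁻¹
      (phaseProd P (fun i => χ i * u₀ i) s)⁻¹ (cexp (h χ s))]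
  have hQn : ‖Q⁻¹‖ ≤ B + ε := by
    linarith [norm_le_norm_add_norm_sub' Q⁻¹ (cexp (h χ s)), hB χ s hs]
  rw [show s + 3 / 4 + (t : ℂ) * I = 3 / 4 + t * I + s by ring]
  obtain ⟨Z, hZ⟩ : ∃ Z, Z = LFunction χ (3 / 4 + t * I + s) := ⟨_, rfl⟩
  rw [← hZ] at hdev ⊢
  calc ‖Z - cexp (h χ s)‖ = ‖(Z * Q - 1) * Q⁻¹ + (Q⁻¹ - cexp (h χ s))‖ := by
        congr 1; field_simp; ring
    _ < ε / 4 + ε / 2 := by
        refine add_lt_add_of_le_of_lt ?_ hQw |>.trans_le' (norm_add_le _ _)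
        rw [norm_mul]
        exact (mul_le_mul hdev hQn (norm_nonneg _) hη₁0.le).trans hη₁
    _ < ε := by linarith

/-- **Joint universality of the Dirichlet `L`-functions modulo `q`**, the phases at the primes
dividing `q` near `1`. -/
theorem exists_L_universal_phase {r : ℝ} (hr : 0 < r) (hr4 : r < 1 / 4)
    {f : DirichletCharacter ℂ q → ℂ → ℂ}
    (hfc : ∀ χ, ContinuousOn (f χ) (Metric.closedBall 0 r))
    (hfd : ∀ χ, DifferentiableOn ℂ (f χ) (Metric.ball 0 r))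
    (hf0 : ∀ χ, ∀ s ∈ Metric.closedBall (0 : ℂ) r, f χ s ≠ 0) {ε : ℝ} (hε : 0 < ε) (T₀ : ℝ) :
    ∃ c : ℝ, 0 < c ∧ ∀ᶠ T : ℝ in atTop, c * T ≤ volume.real {t ∈ Set.Icc T₀ T |
      (∀ (χ : DirichletCharacter ℂ q) (s : ℂ), ‖s‖ ≤ r →
        ‖LFunction χ (s + 3 / 4 + t * I) - f χ s‖ < ε) ∧
      ∀ p ∈ q.primeFactors, ‖dmono p t - 1‖ < ε} := by
  classical
  choose δ' hδ0' hδ' using fun χ => Metric.uniformContinuousOn_iff.1
    ((isCompact_closedBall (0 : ℂ) r).uniformContinuousOn_of_continuous (hfc χ)) (ε / 2)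
    (half_pos hε)
  obtain ⟨δ, hδd⟩ : ∃ δ, δ = univ.inf' univ_nonempty δ' := ⟨_, rfl⟩
  have hδ0 : 0 < δ := hδd ▸ (lt_inf'_iff _).2 fun χ _ => hδ0' χ
  obtain ⟨c, hc⟩ : ∃ c, c = max (1 / 2) (1 - δ / (2 * (r + 1))) := ⟨_, rfl⟩
  have hc0 : 0 < c := hc ▸ lt_max_of_lt_left one_half_pos
  have hc1 : c < 1 := hc ▸ max_lt one_half_lt_one (sub_lt_self _ (by positivity))
  have hcδ : (1 - c) * r < δ := by
    have h1 : 1 - c ≤ δ / (2 * (r + 1)) := by
      linarith [hc ▸ le_max_right (1 / 2) (1 - δ / (2 * (r + 1)))]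
    refine (mul_le_mul_of_nonneg_right h1 hr.le).trans_lt ?_
    rw [div_mul_eq_mul_div, div_lt_iff₀ (by positivity)]
    nlinarith
  have hrR : r < r / c := by
    rw [lt_div_iff₀ hc0]
    nlinarith
  have hmaps : ∀ s ∈ Metric.ball (0 : ℂ) (r / c), (c : ℂ) * s ∈ Metric.ball (0 : ℂ) r :=
    fun s hs => by
      rw [Metric.mem_ball, dist_zero_right] at hs ⊢
      rw [norm_mul, Complex.norm_real, Real.norm_of_nonneg hc0.le]
      rw [lt_div_iff₀ hc0] at hs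
      linarith
  have hgd : ∀ χ, DifferentiableOn ℂ (fun s => f χ (c * s)) (Metric.ball 0 (r / c)) := fun χ =>
    (hfd χ).comp (differentiableOn_id.const_mul _) hmaps
  have hg0 : ∀ χ, ∀ s ∈ Metric.ball (0 : ℂ) (r / c), f χ (c * s) ≠ 0 := fun χ s hs =>
    hf0 χ _ (Metric.ball_subset_closedBall (hmaps s hs))
  choose l _ hld hl using fun χ => FA.DLVP.exists_log (hr.trans hrR) (hgd χ) (hg0 χ)
  obtain ⟨c', hc', hev⟩ := exists_L_near_exp hr.le hr4 hrR
    (h := fun χ s => Complex.log (f χ (c * 0)) + l χ s)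
    (fun χ => (differentiableOn_const _).add fun s hs =>
      (hld χ s hs).differentiableAt.differentiableWithinAt) (half_pos hε) T₀
  refine ⟨c', hc', hev.mono fun T hT => hT.trans (measureReal_mono ?_ ?_)⟩
  swap
  · exact ((measure_mono fun t ht => ht.1).trans_lt measure_Icc_lt_top).ne
  rintro t ⟨ht, htu, htp⟩
  refine ⟨ht, fun χ s hs => ?_, fun p hp => (htp p hp).trans_le (by linarith)⟩
  have hsr : s ∈ Metric.ball (0 : ℂ) (r / c) := by
    rw [Metric.mem_ball, dist_zero_right]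
    linarith
  have h1 := htu χ s hs
  rw [Complex.exp_add, Complex.exp_log (hg0 χ 0 (Metric.mem_ball_self (hr.trans hrR))),
    ← hl χ s hsr] at h1
  have h2 : ‖f χ (c * s) - f χ s‖ < ε / 2 := by
    have h := hδ' χ ((c : ℂ) * s) (Metric.ball_subset_closedBall (hmaps s hsr)) s
      (by rwa [Metric.mem_closedBall, dist_zero_right]) (by
        rw [dist_eq_norm, ← sub_one_mul, norm_mul, ← Complex.ofReal_one, ← Complex.ofReal_sub,
          Complex.norm_real, Real.norm_eq_abs, abs_of_neg (sub_neg.2 hc1)]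
        refine lt_of_le_of_lt (mul_le_mul_of_nonneg_left hs (by linarith))
          (lt_of_lt_of_le ?_ (hδd ▸ inf'_le _ (mem_univ χ)))
        linarith)
    rwa [dist_eq_norm] at h
  linarith [norm_sub_le_norm_sub_add_norm_sub (LFunction χ (s + 3 / 4 + t * I)) (f χ (c * s))
    (f χ s)]

/-- **Joint universality of the Dirichlet `L`-functions modulo `q`**, with positive lower
density. -/
theorem exists_L_universal_density {r : ℝ} (hr : 0 < r) (hr4 : r < 1 / 4)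
    {f : DirichletCharacter ℂ q → ℂ → ℂ}
    (hfc : ∀ χ, ContinuousOn (f χ) (Metric.closedBall 0 r))
    (hfd : ∀ χ, DifferentiableOn ℂ (f χ) (Metric.ball 0 r))
    (hf0 : ∀ χ, ∀ s ∈ Metric.closedBall (0 : ℂ) r, f χ s ≠ 0) {ε : ℝ} (hε : 0 < ε) (T₀ : ℝ) :
    ∃ c : ℝ, 0 < c ∧ ∀ᶠ T : ℝ in atTop, c * T ≤ volume.real {t ∈ Set.Icc T₀ T |
      ∀ (χ : DirichletCharacter ℂ q) (s : ℂ), ‖s‖ ≤ r →
        ‖LFunction χ (s + 3 / 4 + t * I) - f χ s‖ < ε} := by
  obtain ⟨c, hc, hev⟩ := exists_L_universal_phase hr hr4 hfc hfd hf0 hε T₀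
  exact ⟨c, hc, hev.mono fun T hT => hT.trans (measureReal_mono (fun t ht => ⟨ht.1, ht.2.1⟩)
    ((measure_mono fun t ht => ht.1).trans_lt measure_Icc_lt_top).ne)⟩

/-- **Joint universality of the Dirichlet `L`-functions modulo `q`.** -/
theorem exists_L_universal {r : ℝ} (hr : 0 < r) (hr4 : r < 1 / 4)
    {f : DirichletCharacter ℂ q → ℂ → ℂ}
    (hfc : ∀ χ, ContinuousOn (f χ) (Metric.closedBall 0 r))
    (hfd : ∀ χ, DifferentiableOn ℂ (f χ) (Metric.ball 0 r))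
    (hf0 : ∀ χ, ∀ s ∈ Metric.closedBall (0 : ℂ) r, f χ s ≠ 0) {ε : ℝ} (hε : 0 < ε) (T₀ : ℝ) :
    ∃ t : ℝ, T₀ ≤ t ∧ ∀ (χ : DirichletCharacter ℂ q) (s : ℂ), ‖s‖ ≤ r →
      ‖LFunction χ (s + 3 / 4 + t * I) - f χ s‖ < ε := by
  obtain ⟨c, hc, hev⟩ := exists_L_universal_density hr hr4 hfc hfd hf0 hε T₀
  obtain ⟨T, hT, hT0⟩ := (hev.and (eventually_gt_atTop (0 : ℝ))).exists
  obtain ⟨t, ⟨ht, -⟩, htu⟩ := nonempty_of_measureReal_ne_zero
    (lt_of_lt_of_le (mul_pos hc hT0) hT).ne'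
  exact ⟨t, ht, htu⟩

end FA.Joint
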