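import Fermat.Agent.BohrCourant.Main
import Fermat.Agent.Joint.Approx

/-!
# `L (σ + it, χ)` and its Euler factors in mean square

As for `ζ`: with the weight `‖focus‖²` the product of `L (s, χ)` by `∏_{p ∈ P} (1 - χ p p^(-s))` is
within `∑_{n > M} n^(-2σ)` of `1` if `P` holds all primes up to `M`.
-/

set_option autoImplicit false

noncomputable section

namespace FA.Joint

open Finset Filter Complex MeasureTheory
open FA.BohrCourant
open FA.BohrLandau (eSum)
open DirichletCharacter (LFunction)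
open scoped Topology Real ComplexConjugate

variable {q : ℕ} [NeZero q] (P : Finset ℕ)

/-- `χ n n ^ (-σ)`. -/
def twistCoeff (χ : DirichletCharacter ℂ q) (σ : ℝ) (n : ℕ) : ℂ := χ n * lineCoeff σ n

omit [NeZero q] in
theorem norm_twistCoeff_le_line (χ : DirichletCharacter ℂ q) (σ : ℝ) (n : ℕ) :
    ‖twistCoeff χ σ n‖ ≤ ‖lineCoeff σ n‖ := by
  rw [twistCoeff, norm_mul]
  exact mul_le_of_le_one_left (norm_nonneg _) (χ.norm_le_one _)

omit [NeZero q] in
theorem norm_twistCoeff_le (χ : DirichletCharacter ℂ q) {σ : ℝ} (hσ : 0 ≤ σ) {p : ℕ}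
    (hp : p.Prime) : ‖twistCoeff χ σ p‖ ≤ (2 : ℝ) ^ (-σ) :=
  (norm_twistCoeff_le_line χ σ p).trans (norm_lineCoeff_le hσ hp)

omit [NeZero q] in
theorem norm_twistCoeff_anti (χ : DirichletCharacter ℂ q) {σ₀ σ : ℝ} (h : σ₀ ≤ σ) {n : ℕ}
    (hn : 0 < n) : ‖twistCoeff χ σ n‖ ^ 2 ≤ ‖lineCoeff σ₀ n‖ ^ 2 :=
  (pow_le_pow_left₀ (norm_nonneg _) (norm_twistCoeff_le_line χ σ n) 2).trans
    (norm_lineCoeff_anti h hn)

omit [NeZero q] in
theorem sum_twist_le_tailSum (χ : DirichletCharacter ℂ q) {σ₀ σ : ℝ} (hσ₀ : 1 / 2 < σ₀)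
    (h : σ₀ ≤ σ) {s : Finset ℕ} {y : ℕ} (hs : ∀ n ∈ s, y < n) :
    ∑ n ∈ s, ‖twistCoeff χ σ n‖ ^ 2 ≤ tailSum σ₀ y :=
  (sum_le_sum fun n _ => pow_le_pow_left₀ (norm_nonneg _) (norm_twistCoeff_le_line χ σ n) 2).trans
    (sum_le_tailSum_of_le hσ₀ h hs)

/-- The finite sum over `U`. -/
def charSumLine (χ : DirichletCharacter ℂ q) (σ : ℝ) (U : Finset ℕ) (t : ℝ) : ℂ :=
  dpoly U id (twistCoeff χ σ) t

omit [NeZero q] in
theorem charVertSum_eq (χ : DirichletCharacter ℂ q) [NeZero q] (σ : ℝ) (M : ℕ) (t : ℝ) :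
    charVertSum χ σ M t = charSumLine χ σ (Icc 1 M) t :=
  sum_congr rfl fun n hn => by
    rw [id_eq, twistCoeff, mul_assoc, lineTerm_eq (mem_Icc.1 hn).1]

omit [NeZero q] in
theorem continuous_charSumLine (χ : DirichletCharacter ℂ q) {σ : ℝ} {U : Finset ℕ}
    (hU : ∀ n ∈ U, 0 < n) : Continuous (charSumLine χ σ U) :=
  continuous_dpoly hU _

theorem continuousOn_L_line {χ : DirichletCharacter ℂ q} (hχ : χ ≠ 1) (σ : ℝ) {A : Set ℝ} :
    ContinuousOn (fun t : ℝ => LFunction χ (σ + t * I)) A :=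
  ((DirichletCharacter.differentiable_LFunction hχ).continuous.comp
    (by fun_prop : Continuous fun t : ℝ => (σ : ℂ) + t * I)).continuousOn

/-- **The approximation in mean square**, uniformly to the right of `σ₀`. -/
theorem eventually_meanSquare_charSub_le {χ : DirichletCharacter ℂ q} (hχ : χ ≠ 1) {σ₀ : ℝ}
    (hσ₀ : 1 / 2 < σ₀) {U : Finset ℕ} (hU : ∀ n ∈ U, 0 < n) {y : ℕ} (hy : Icc 1 y ⊆ U) {η : ℝ}
    (hη : 0 < η) :
    ∀ᶠ T : ℝ in atTop, ∀ σ : ℝ, σ₀ ≤ σ → σ ≤ 4 →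
      (∫ t in (2 : ℝ)..T, ‖LFunction χ (σ + t * I) - charSumLine χ σ U t‖ ^ 2) / T ≤
        2 * tailSum σ₀ y + η := by
  have hq1 : (1 : ℝ) ≤ q := by exact_mod_cast NeZero.pos q
  obtain ⟨N, hN⟩ : ∃ N, N = U.sup id := ⟨_, rfl⟩
  have hfl : Tendsto (fun T : ℝ => ⌊(q : ℝ) * T⌋₊) atTop atTop :=
    tendsto_nat_floor_atTop.comp (tendsto_id.const_mul_atTop (by linarith))
  have h1 : Tendsto (fun T : ℝ => 2 * (256 * (q : ℝ) ^ 3 / T)) atTop (𝓝 0) := by
    simpa using ((tendsto_const_nhds (x := 256 * (q : ℝ) ^ 3)).div_atTop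
      (tendsto_id (α := ℝ))).const_mul (2 : ℝ)
  have h2 : Tendsto (fun T : ℝ => 12 * π * q *
      (eSum σ₀ ⌊(q : ℝ) * T⌋₊ / (⌊(q : ℝ) * T⌋₊ : ℝ))) atTop (𝓝 0) := by
    simpa using ((FA.BohrLandau.tendsto_eSum_div hσ₀).comp hfl).const_mul (12 * π * q)
  filter_upwards [(h1.add h2).eventually (eventually_le_nhds (show (0 : ℝ) + 0 < η by linarith)),
    eventually_ge_atTop ((N : ℝ) + 2)] with T hlim hTN σ hσ hσ4
  have hN0 : (0 : ℝ) ≤ N := Nat.cast_nonneg N
  have hT : 2 ≤ T := by linarith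
  have hqT : T ≤ q * T := le_mul_of_one_le_left (by linarith) hq1
  obtain ⟨M, hM⟩ : ∃ M, M = ⌊(q : ℝ) * T⌋₊ := ⟨_, rfl⟩
  have hMlo : (q : ℝ) * T ≤ (M : ℝ) + 1 := hM ▸ (Nat.lt_floor_add_one _).le
  have hUM : U ⊆ Icc 1 M := fun n hn => mem_Icc.2 ⟨hU n hn, hM ▸ Nat.le_floor (by
    have : (n : ℝ) ≤ N := Nat.cast_le.2 (hN ▸ le_sup (f := id) hn)
    linarith)⟩
  obtain ⟨D, hD⟩ : ∃ D : ℝ → ℂ, D = charSumLine χ σ (Icc 1 M \ U) := ⟨_, rfl⟩
  have hDc : Continuous D := hD ▸ continuous_charSumLine χ fun n hn =>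
    (mem_Icc.1 (Finset.mem_sdiff.1 hn).1).1
  have hpt : ∀ t ∈ Set.Icc (2 : ℝ) T, ‖LFunction χ (σ + t * I) - charSumLine χ σ U t‖ ^ 2 ≤
      2 * (256 * (q : ℝ) ^ 3 / T) + 2 * ‖D t‖ ^ 2 := by
    intro t ht
    obtain ⟨e, he⟩ : ∃ e, e = LFunction χ (σ + t * I) - charVertSum χ σ M t := ⟨_, rfl⟩
    have hsplit : LFunction χ (σ + t * I) - charSumLine χ σ U t = e + D t := by
      rw [he, charVertSum_eq, hD]
      simp only [charSumLine, dpoly]
      rw [← sum_sdiff hUM]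
      ring
    have hq2 : (q : ℝ) * t ≤ (M : ℝ) + 1 :=
      le_trans (mul_le_mul_of_nonneg_left ht.2 (by linarith)) hMlo
    have hb := norm_charVertErr_le hχ (by linarith) hσ4 ht.1 hq2
    rw [← he] at hb
    have he2 : ‖e‖ ^ 2 ≤ 256 * (q : ℝ) ^ 3 / T := by
      refine (pow_le_pow_left₀ (norm_nonneg _) hb 2).trans ?_
      rw [div_pow, Real.sq_sqrt (by positivity),
        show (16 * (q : ℝ) ^ 2) ^ 2 = 256 * (q : ℝ) ^ 3 * q by ring,
        div_le_div_iff₀ (by positivity) (by linarith), mul_assoc]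
      exact mul_le_mul_of_nonneg_left hMlo (by positivity)
    rw [hsplit]
    have := norm_add_le e (D t)
    nlinarith [sq_nonneg (‖e‖ - ‖D t‖), norm_nonneg (e + D t)]
  have hDle : ∫ t in (2 : ℝ)..T, ‖D t‖ ^ 2 ≤ T * tailSum σ₀ y + 6 * π * eSum σ₀ M := by
    have h := (abs_le.1 (FA.MeanValue.mean_value_dirichlet
      (fun n => if n ∈ U then 0 else twistCoeff χ σ n) M 2 T)).2
    have e : ∀ t : ℝ, ∑ n ∈ Icc 1 M, (if n ∈ U then 0 else twistCoeff χ σ n) *
        (n : ℂ) ^ (-(I * (t : ℂ))) = D t := fun t => by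
      rw [hD, charSumLine, dpoly, ← sum_sdiff hUM]
      rw [sum_eq_zero (s := U) fun n hn => by rw [if_pos hn, zero_mul], add_zero]
      refine sum_congr rfl fun n hn => ?_
      rw [if_neg (Finset.mem_sdiff.1 hn).2]
      rfl
    simp only [e] at h
    have hsum : ∑ n ∈ Icc 1 M, ‖if n ∈ U then 0 else twistCoeff χ σ n‖ ^ 2 ≤ tailSum σ₀ y := by
      refine le_trans (le_of_eq ?_)
        (sum_twist_le_tailSum χ hσ₀ hσ (s := Icc 1 M \ U) fun n hn => ?_)
      · rw [← sum_sdiff hUM, sum_eq_zero (s := U) fun n hn => by simp [hn], add_zero]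
        exact sum_congr rfl fun n hn => by rw [if_neg (Finset.mem_sdiff.1 hn).2]
      · rw [Finset.mem_sdiff, mem_Icc] at hn
        by_contra hle
        exact hn.2 (hy (mem_Icc.2 ⟨hn.1.1, by omega⟩))
    have herr : 4 * π * ∑ n ∈ Icc 1 M, ((n : ℝ) + 1 / 2) *
        ‖if n ∈ U then 0 else twistCoeff χ σ n‖ ^ 2 ≤ 6 * π * eSum σ₀ M := by
      refine le_trans ?_ (mul_le_mul_of_nonneg_left (eSum_anti hσ M) (by positivity))
      rw [eSum, mul_sum, mul_sum]
      refine sum_le_sum fun n hn => ?_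
      have hn1 : (1 : ℝ) ≤ n := by exact_mod_cast (mem_Icc.1 hn).1
      have hle : ‖if n ∈ U then 0 else twistCoeff χ σ n‖ ^ 2 ≤ ‖lineCoeff σ n‖ ^ 2 := by
        refine pow_le_pow_left₀ (norm_nonneg _) ?_ 2
        split_ifs
        · rw [norm_zero]; exact norm_nonneg _
        · exact norm_twistCoeff_le_line χ σ n
      rw [show (1 - 2 * σ) = -(2 * σ) + 1 by ring, Real.rpow_add (by linarith), Real.rpow_one,
        ← norm_sq_lineCoeff]
      nlinarith [mul_nonneg (mul_nonneg Real.pi_pos.le (sq_nonneg ‖lineCoeff σ n‖))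
        (sub_nonneg.2 hn1), mul_le_mul_of_nonneg_left hle
          (show 0 ≤ 4 * π * ((n : ℝ) + 1 / 2) by positivity)]
    have h0 : 0 ≤ ∑ n ∈ Icc 1 M, ‖if n ∈ U then 0 else twistCoeff χ σ n‖ ^ 2 :=
      sum_nonneg fun n _ => sq_nonneg _
    nlinarith
  have hDi : IntervalIntegrable (fun t => ‖D t‖ ^ 2) volume 2 T :=
    (hDc.norm.pow 2).intervalIntegrable _ _
  rw [div_le_iff₀ (by linarith)]
  refine (intervalIntegral.integral_mono_on hT
    ((((continuousOn_L_line hχ σ).sub (continuous_charSumLine χ hU).continuousOn).norm.pow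
      2).intervalIntegrable) (intervalIntegrable_const.add (hDi.const_mul 2)) hpt).trans ?_
  rw [intervalIntegral.integral_add intervalIntegrable_const (hDi.const_mul 2),
    intervalIntegral.integral_const, intervalIntegral.integral_const_mul, smul_eq_mul]
  rw [← hM] at hlim
  have hM0 : 0 < (M : ℝ) := Nat.cast_pos.2 (hM ▸ Nat.floor_pos.2 (by linarith))
  have hMT : (M : ℝ) ≤ q * T := hM ▸ Nat.floor_le (by positivity)
  have he0 : 0 ≤ eSum σ₀ M := sum_nonneg fun n _ => Real.rpow_nonneg (Nat.cast_nonneg n) _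
  have hq : 12 * π * eSum σ₀ M ≤ 12 * π * q * (eSum σ₀ M / M) * T := by
    rw [show 12 * π * q * (eSum σ₀ M / M) * T = 12 * π * (eSum σ₀ M / M * ((q : ℝ) * T)) by ring,
      div_mul_eq_mul_div]
    refine mul_le_mul_of_nonneg_left ?_ (by positivity)
    rw [le_div_iff₀ hM0]
    exact mul_le_mul_of_nonneg_left hMT he0
  nlinarith [mul_le_mul_of_nonneg_right hlim (show 0 ≤ T by linarith),
    show 0 ≤ 2 * (256 * (q : ℝ) ^ 3 / T) by positivity]

/-- The powers `(χ p r) ^ e`. -/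
def charGeomCoeff (χ : DirichletCharacter ℂ q) (σ : ℝ) (i : P) (e : ℕ) : ℂ :=
  twistCoeff χ σ i ^ e

omit [NeZero q] in
theorem charSumLine_smoothApprox (hP : ∀ p ∈ P, p.Prime) (χ : DirichletCharacter ℂ q) (σ : ℝ)
    (L y : ℕ) (t : ℝ) :
    charSumLine χ σ (smoothApprox P L y) t =
      localProd P L (charGeomCoeff P χ σ) t * dpoly (roughSet P y) id (twistCoeff χ σ) t := by
  classical
  rw [localProd_mul_dpoly, charSumLine, dpoly, dpoly, smoothApprox,
    sum_image (injOn_smoothNum_mul P hP subset_rfl)]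
  refine sum_congr rfl fun x _ => ?_
  simp only [id_eq, charGeomCoeff, twistCoeff, mul_pow, prod_mul_distrib]
  have e1 : χ ((smoothNum P x.1 * x.2 : ℕ) : ZMod q) =
      (∏ i : P, χ ((i : ℕ) : ZMod q) ^ x.1 i) * χ ((x.2 : ℕ) : ZMod q) := by
    simp only [smoothNum, Nat.cast_mul, Nat.cast_prod, Nat.cast_pow, map_mul, map_prod, map_pow]
  have e2 : lineCoeff σ (smoothNum P x.1 * x.2) =
      (∏ i : P, lineCoeff σ i ^ x.1 i) * lineCoeff σ x.2 := by
    simp only [lineCoeff, smoothNum, ← Complex.ofReal_pow, ← Complex.ofReal_prod,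
      ← Complex.ofReal_mul]
    congr 1
    rw [Nat.cast_mul, Real.mul_rpow (Nat.cast_nonneg _) (Nat.cast_nonneg _), Nat.cast_prod,
      ← Real.finsetProd_rpow _ _ fun i _ => Nat.cast_nonneg _]
    congr 1
    refine prod_congr rfl fun i _ => ?_
    rw [Nat.cast_pow, ← Real.rpow_natCast ((i : ℕ) : ℝ), ← Real.rpow_mul (Nat.cast_nonneg _),
      ← Real.rpow_natCast (((i : ℕ) : ℝ) ^ (-σ)), ← Real.rpow_mul (Nat.cast_nonneg _), mul_comm]
  rw [e1, e2]
  ring

/-- `∏ (1 - χ p p^(-σ) p^(-it))`. -/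
def charInvEuler (χ : DirichletCharacter ℂ q) (σ t : ℝ) : ℂ :=
  ∏ i : P, (1 - twistCoeff χ σ i * dmono i t)

omit [NeZero q] in
theorem continuous_charInvEuler (hP : ∀ p ∈ P, p.Prime) (χ : DirichletCharacter ℂ q) (σ : ℝ) :
    Continuous (charInvEuler P χ σ) :=
  continuous_finsetProd _ fun i _ =>
    continuous_const.sub (continuous_const.mul (continuous_dmono (hP i i.2).pos))

/-- The finite factor left by the truncation. -/
def charDefect (χ : DirichletCharacter ℂ q) (σ : ℝ) (L : ℕ) (t : ℝ) : ℂ :=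
  ∏ i : P, (1 - (twistCoeff χ σ i * dmono i t) ^ (L + 1))

omit [NeZero q] in
theorem charInvEuler_mul_localProd (χ : DirichletCharacter ℂ q) (σ : ℝ) (L : ℕ) (t : ℝ) :
    charInvEuler P χ σ t * localProd P L (charGeomCoeff P χ σ) t = charDefect P χ σ L t := by
  rw [charInvEuler, localProd, charDefect, ← prod_mul_distrib]
  refine prod_congr rfl fun i _ => ?_
  simp only [charGeomCoeff, ← mul_pow]
  exact mul_neg_geom_sum _ _

omit [NeZero q] in
theorem norm_charDefect_sub_one_le (hP : ∀ p ∈ P, p.Prime) (χ : DirichletCharacter ℂ q) {σ : ℝ}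
    (hσ : 0 ≤ σ) (L : ℕ) (t : ℝ) :
    ‖charDefect P χ σ L t - 1‖ ≤ Real.exp (P.card * ((2 : ℝ) ^ (-σ)) ^ (L + 1)) - 1 := by
  refine le_trans (le_of_eq ?_) ((norm_prod_one_add_sub_one_le univ
    fun i : P => -(twistCoeff χ σ i * dmono i t) ^ (L + 1)).trans ?_)
  · simp only [charDefect, sub_eq_add_neg]
  · refine sub_le_sub_right (Real.exp_le_exp.2 ?_) 1
    rw [← Fintype.card_coe, ← card_univ, ← nsmul_eq_mul]
    refine sum_le_card_nsmul _ _ _ fun i _ => ?_
    rw [norm_neg, norm_pow, norm_mul, norm_dmono (hP i i.2).pos, mul_one]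
    exact pow_le_pow_left₀ (norm_nonneg _) (norm_twistCoeff_le χ hσ (hP i i.2)) _

theorem intervalIntegrable_charDev {χ : DirichletCharacter ℂ q} (hχ : χ ≠ 1)
    (hP : ∀ p ∈ P, p.Prime) (σ : ℝ) (z : ℕ → ℂ) (K : ℕ) {A T : ℝ} :
    IntervalIntegrable (fun t =>
      ‖focus P K z t * (LFunction χ (σ + t * I) * charInvEuler P χ σ t - 1)‖ ^ 2) volume A T :=
  (((continuous_localProd P hP K _).continuousOn.mul
    (((continuousOn_L_line hχ σ).mul (continuous_charInvEuler P hP χ σ).continuousOn).sub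
      continuousOn_const)).norm.pow 2).intervalIntegrable

/-- **The weighted mean of `L(s, χ) ∏ (1 - χ p p^(-s)) - 1`**, uniformly to the right of `σ₀` and
in the phases. -/
theorem eventually_charDev_le {χ : DirichletCharacter ℂ q} (hχ : χ ≠ 1)
    (hP : ∀ p ∈ P, p.Prime) {σ₀ : ℝ} (hσ₀ : 1 / 2 < σ₀)
    (K : ℕ) {M : ℕ} (hM : ∀ n, 2 ≤ n → n ≤ M → ∃ p ∈ P, p ∣ n) {η : ℝ} (hη : 0 < η) :
    ∀ᶠ T : ℝ in atTop, ∀ (σ : ℝ) (z : ℕ → ℂ), σ₀ ≤ σ → σ ≤ 4 → (∀ n, ‖z n‖ = 1) →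
      (∫ t in (2 : ℝ)..T,
        ‖focus P K z t * (LFunction χ (σ + t * I) * charInvEuler P χ σ t - 1)‖ ^ 2) / T ≤
          3 * ((K : ℝ) + 1) ^ P.card * tailSum σ₀ M + η := by
  classical
  obtain ⟨F, hF⟩ : ∃ F, F = ((K : ℝ) + 1) ^ P.card := ⟨_, rfl⟩
  have hF0 : 0 < F := hF ▸ by positivity
  obtain ⟨G, hG⟩ : ∃ G, G = (2 : ℝ) ^ P.card := ⟨_, rfl⟩
  have hG0 : 0 < G := hG ▸ by positivity
  have hr1 : (2 : ℝ) ^ (-σ₀) < 1 := Real.rpow_lt_one_of_one_lt_of_neg one_lt_two (by linarith)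
  obtain ⟨Z, hZ⟩ : ∃ Z, Z = ∑' n : ℕ, (n : ℝ) ^ (-(2 * σ₀)) := ⟨_, rfl⟩
  have hZ0 : 0 ≤ Z := hZ ▸ tsum_nonneg fun n => by positivity
  -- choose the truncation
  obtain ⟨y, hy⟩ := eventually_atTop.1 (((tendsto_tailSum σ₀).eventually
    (eventually_le_nhds (show (0 : ℝ) < η / (24 * F ^ 2 * G ^ 2) by positivity))).and
      (eventually_ge_atTop 1))
  have hdef : Tendsto (fun L : ℕ => 3 * (F ^ 2 * (Z + 1) *
      (Real.exp (P.card * ((2 : ℝ) ^ (-σ₀)) ^ (L + 1)) - 1) ^ 2)) atTop (𝓝 0) := by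
    have h := (((Real.continuous_exp.tendsto _).comp
      (((tendsto_pow_atTop_nhds_zero_of_lt_one (by positivity) hr1).comp
        (tendsto_add_atTop_nat 1)).const_mul (P.card : ℝ))).sub_const 1).pow 2
    have h' := (h.const_mul (F ^ 2 * (Z + 1))).const_mul 3
    simpa using h'
  obtain ⟨L, hL⟩ := eventually_atTop.1
    ((hdef.eventually (eventually_le_nhds (show (0 : ℝ) < η / 4 by positivity))).and
      (eventually_ge_atTop y))
  obtain ⟨hL1, hLy⟩ := hL L le_rfl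
  obtain ⟨θ, hθ⟩ : ∃ θ, θ = Real.exp (P.card * ((2 : ℝ) ^ (-σ₀)) ^ (L + 1)) - 1 := ⟨_, rfl⟩
  rw [← hθ] at hL1
  obtain ⟨U, hU⟩ : ∃ U, U = smoothApprox P L y := ⟨_, rfl⟩
  have happrox := eventually_meanSquare_charSub_le hχ hσ₀
    (U := U) (hU ▸ smoothApprox_pos P hP L y) (y := y)
    (hU ▸ Icc_subset_smoothApprox P hP hLy)
    (show 0 < η / (12 * F ^ 2 * G ^ 2) by positivity)
  have hRms := eventually_dpoly_sq_le (s := roughSet P y) (m := id)
    (fun n hn => ((mem_roughSet P).1 hn).1.1) Function.injective_id.injOn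
    (show 0 < 1 / (Z + 1) by positivity)
  have hFR := eventually_localProd_sq_le P hP K (y := y) (R := (roughSet P y).erase 1)
    (erase_subset _ _) (show 0 < η / (12 * (F * (tailSum σ₀ M + 1))) by
      have := tailSum_nonneg σ₀ M
      positivity)
  filter_upwards [happrox, hRms, hFR, eventually_ge_atTop (2 : ℝ)] with T hA hB hC hT σ z hσ hσ4 hz
  rw [← hF]
  replace hA := hA σ hσ hσ4
  obtain ⟨R, hR⟩ : ∃ R : ℝ → ℂ, R = fun t => dpoly (roughSet P y) id (twistCoeff χ σ) t := ⟨_, rfl⟩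
  obtain ⟨R₂, hR₂⟩ : ∃ R₂ : ℝ → ℂ,
      R₂ = fun t => dpoly ((roughSet P y).erase 1) id (twistCoeff χ σ) t := ⟨_, rfl⟩
  have hRc : Continuous R := hR ▸ continuous_dpoly (fun n hn => ((mem_roughSet P).1 hn).1.1) _
  have hR₂c : Continuous R₂ :=
    hR₂ ▸ continuous_dpoly (fun n hn => ((mem_roughSet P).1 (mem_erase.1 hn).2).1.1) _
  have hsumR : ∑ n ∈ roughSet P y, ‖twistCoeff χ σ n‖ ^ 2 ≤ Z := by
    refine (sum_le_sum fun n hn =>
      norm_twistCoeff_anti χ hσ ((mem_roughSet P).1 hn).1.1).trans ?_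
    simp only [norm_sq_lineCoeff]
    rw [hZ]
    exact (FA.BohrLandau.summable_neg_two_mul hσ₀).sum_le_tsum _ fun n _ => by positivity
  replace hB :
      (∫ t in (2 : ℝ)..T, ‖dpoly (roughSet P y) id (twistCoeff χ σ) t‖ ^ 2) / T ≤ Z + 1 := by
    refine (hB (twistCoeff χ σ)).trans ((mul_le_mul_of_nonneg_left hsumR (by positivity)).trans ?_)
    have : 1 / (Z + 1) * Z ≤ 1 := by
      rw [div_mul_eq_mul_div, div_le_one (by linarith)]; linarith
    linarith
  replace hC : (∫ t in (2 : ℝ)..T, ‖localProd P K (focusCoeff P z) t *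
      dpoly ((roughSet P y).erase 1) id (twistCoeff χ σ) t‖ ^ 2) / T ≤
      F * tailSum σ₀ M + η / 12 := by
    have h := sum_twist_le_tailSum χ hσ₀ hσ (s := (roughSet P y).erase 1) (y := M) fun n hn => by
      obtain ⟨hn1, hn2⟩ := mem_erase.1 hn
      obtain ⟨⟨h1, -⟩, h2⟩ := (mem_roughSet P).1 hn2
      by_contra hle
      obtain ⟨p, hp, hpn⟩ := hM n (by omega) (not_lt.1 hle)
      exact h2 p hp hpn
    refine (hC _ _).trans ?_
    simp only [sum_focusCoeff_sq P hz, prod_const, card_univ, Fintype.card_coe, ← hF]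
    have h0 := tailSum_nonneg σ₀ M
    refine (mul_le_mul_of_nonneg_left (mul_le_mul_of_nonneg_left h hF0.le) (by positivity)).trans ?_
    have : η / (12 * (F * (tailSum σ₀ M + 1))) * (F * tailSum σ₀ M) ≤ η / 12 := by
      rw [div_mul_eq_mul_div, div_le_div_iff₀ (by positivity) (by norm_num)]
      nlinarith [mul_pos hη hF0]
    linarith
  obtain ⟨D, hD⟩ : ∃ D : ℝ → ℂ,
      D = fun t : ℝ => LFunction χ (σ + t * I) - charSumLine χ σ U t := ⟨_, rfl⟩
  have hDc : ContinuousOn D (Set.uIcc 2 T) := hD ▸ (continuousOn_L_line hχ σ).sub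
    (continuous_charSumLine χ (hU ▸ smoothApprox_pos P hP L y)).continuousOn
  have hpt : ∀ t : ℝ, ‖focus P K z t * (LFunction χ (σ + t * I) * charInvEuler P χ σ t - 1)‖ ^ 2 ≤
      3 * (F ^ 2 * G ^ 2) * ‖D t‖ ^ 2 + 3 * (F ^ 2 * θ ^ 2) * ‖R t‖ ^ 2 +
        3 * ‖focus P K z t * R₂ t‖ ^ 2 := by
    intro t
    have hfoc : ‖focus P K z t‖ ≤ F := hF ▸ norm_focus_le P hP hz K t
    have hinv : ‖charInvEuler P χ σ t‖ ≤ G := by
      rw [charInvEuler, hG, norm_prod, ← Fintype.card_coe, ← card_univ, ← prod_const]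
      refine prod_le_prod (fun i _ => norm_nonneg _) fun i _ => (norm_sub_le _ _).trans ?_
      rw [norm_one, norm_mul, norm_dmono (hP i i.2).pos, mul_one]
      linarith [norm_twistCoeff_le χ (show 0 ≤ σ by linarith) (hP i i.2),
        Real.rpow_lt_one_of_one_lt_of_neg one_lt_two (show -σ < 0 by linarith)]
    have hgd : ‖charDefect P χ σ L t - 1‖ ≤ θ := by
      refine (norm_charDefect_sub_one_le P hP χ (by linarith) L t).trans (hθ ▸ ?_)
      gcongr
      norm_num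
    have hone : R t = R₂ t + 1 := by
      have h0 : 1 ≤ y := (hy y le_rfl).2
      rw [hR, hR₂]
      simp only [dpoly]
      rw [← sum_erase_add _ _ (show (1 : ℕ) ∈ roughSet P y from (mem_roughSet P).2
        ⟨⟨le_rfl, h0⟩, fun p hp hd => (hP p hp).ne_one (Nat.dvd_one.1 hd)⟩)]
      simp [twistCoeff, lineCoeff, dmono_one]
    have e : focus P K z t * (LFunction χ (σ + t * I) * charInvEuler P χ σ t - 1) =
        focus P K z t * charInvEuler P χ σ t * D t +
          focus P K z t * (charDefect P χ σ L t - 1) * R t +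
          focus P K z t * R₂ t := by
      rw [hD, hU]
      simp only
      rw [charSumLine_smoothApprox P hP χ σ L y t, ← charInvEuler_mul_localProd P χ σ L t]
      rw [hR] at hone ⊢
      simp only at hone ⊢
      linear_combination (focus P K z t) * hone
    rw [e]
    have t1 : ‖focus P K z t * charInvEuler P χ σ t * D t‖ ≤ F * G * ‖D t‖ := by
      rw [norm_mul, norm_mul]; gcongr
    have t2 : ‖focus P K z t * (charDefect P χ σ L t - 1) * R t‖ ≤ F * θ * ‖R t‖ := by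
      rw [norm_mul, norm_mul]; gcongr
    refine (pow_le_pow_left₀ (norm_nonneg _) (norm_add₃_le.trans
      (add_le_add (add_le_add t1 t2) le_rfl)) 2).trans ?_
    nlinarith [sq_nonneg (F * G * ‖D t‖ - F * θ * ‖R t‖),
      sq_nonneg (F * G * ‖D t‖ - ‖focus P K z t * R₂ t‖),
      sq_nonneg (F * θ * ‖R t‖ - ‖focus P K z t * R₂ t‖)]
  have i1 : IntervalIntegrable (fun t => ‖D t‖ ^ 2) volume 2 T :=
    (hDc.norm.pow 2).intervalIntegrable
  have i2 : IntervalIntegrable (fun t => ‖R t‖ ^ 2) volume 2 T :=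
    (hRc.norm.pow 2).intervalIntegrable _ _
  have i3 : IntervalIntegrable (fun t => ‖focus P K z t * R₂ t‖ ^ 2) volume 2 T :=
    (((continuous_localProd P hP K _).mul hR₂c).norm.pow 2).intervalIntegrable _ _
  rw [div_le_iff₀ (by linarith)]
  refine (intervalIntegral.integral_mono_on hT (intervalIntegrable_charDev P hχ hP σ z K)
    (((i1.const_mul _).add (i2.const_mul _)).add (i3.const_mul _)) fun t _ => hpt t).trans ?_
  rw [intervalIntegral.integral_add ((i1.const_mul _).add (i2.const_mul _)) (i3.const_mul _),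
    intervalIntegral.integral_add (i1.const_mul _) (i2.const_mul _),
    intervalIntegral.integral_const_mul, intervalIntegral.integral_const_mul,
    intervalIntegral.integral_const_mul]
  rw [div_le_iff₀ (by linarith)] at hA hB hC
  have b1 : 3 * (F ^ 2 * G ^ 2) * (∫ t in (2 : ℝ)..T, ‖D t‖ ^ 2) ≤ η / 2 * T := by
    rw [hD]
    refine (mul_le_mul_of_nonneg_left hA (by positivity)).trans ?_
    have h1 := (hy y le_rfl).1
    rw [le_div_iff₀ (by positivity)] at h1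
    have h2 : η / (12 * F ^ 2 * G ^ 2) * (12 * (F ^ 2 * G ^ 2)) = η := by field_simp
    nlinarith [mul_le_mul_of_nonneg_right h1 (show 0 ≤ T by linarith)]
  have b2 : 3 * (F ^ 2 * θ ^ 2) * (∫ t in (2 : ℝ)..T, ‖R t‖ ^ 2) ≤ η / 4 * T := by
    rw [hR]
    refine (mul_le_mul_of_nonneg_left hB (by positivity)).trans ?_
    nlinarith [mul_le_mul_of_nonneg_right hL1 (show 0 ≤ T by linarith)]
  have b3 : 3 * (∫ t in (2 : ℝ)..T, ‖focus P K z t * R₂ t‖ ^ 2) ≤
      (3 * F * tailSum σ₀ M + η / 4) * T := by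
    rw [hR₂]
    unfold focus
    linarith
  linarith

end FA.Joint
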