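import Fermat.Agent.Joint.Combination

/-!
# Strong universality

A combination of universal functions with two non-zero coefficients approximates every target,
zeros allowed. For the Hurwitz zeta function at `b / q` the factor `q^(it)` is near `1` on the same
heights, the phases at the primes dividing `q` being free.
-/

set_option autoImplicit false

noncomputable section

namespace FA.Joint

open Finset Filter Complex MeasureTheory
open FA.BohrCourant (dmono)
open DirichletCharacter (LFunction)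
open HurwitzZeta (hurwitzZeta)
open scoped Topology Real

variable {q : ℕ} [NeZero q]

/-- Targets without zeros with the given combination. -/
theorem exists_targets_of {c : DirichletCharacter ℂ q → ℂ} {χ₁ χ₂ : DirichletCharacter ℂ q}
    (h12 : χ₁ ≠ χ₂) (h1 : c χ₁ ≠ 0) (h2 : c χ₂ ≠ 0) {r : ℝ} {g : ℂ → ℂ}
    (hgc : ContinuousOn g (Metric.closedBall 0 r))
    (hgd : DifferentiableOn ℂ g (Metric.ball 0 r)) :
    ∃ f : DirichletCharacter ℂ q → ℂ → ℂ, (∀ χ, ContinuousOn (f χ) (Metric.closedBall 0 r)) ∧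
      (∀ χ, DifferentiableOn ℂ (f χ) (Metric.ball 0 r)) ∧
      (∀ χ, ∀ s ∈ Metric.closedBall (0 : ℂ) r, f χ s ≠ 0) ∧
        ∀ s, ∑ χ, c χ * f χ s = g s := by
  classical
  obtain ⟨W, hW⟩ : ∃ W, W = (univ.erase χ₁).filter fun χ => c χ ≠ 0 := ⟨_, rfl⟩
  have hmem : χ₂ ∈ W := hW ▸ mem_filter.2 ⟨mem_erase.2 ⟨h12.symm, mem_univ _⟩, h2⟩
  have hW0 : (W.card : ℂ) ≠ 0 := Nat.cast_ne_zero.2 (card_pos.2 ⟨χ₂, hmem⟩).ne'
  obtain ⟨B, hB⟩ := (isCompact_closedBall (0 : ℂ) r).exists_bound_of_continuousOn hgc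
  obtain ⟨A, hA⟩ : ∃ A : ℝ, A = |B| + 1 := ⟨_, rfl⟩
  have hA0 : 0 < A := hA ▸ by positivity
  have hA0' : (A : ℂ) ≠ 0 := Complex.ofReal_ne_zero.2 hA0.ne'
  obtain ⟨f, hf⟩ : ∃ f : DirichletCharacter ℂ q → ℂ → ℂ, f = fun χ s =>
      if χ = χ₁ then ((A : ℂ) + g s) / c χ
      else if c χ = 0 then 1 else -(A : ℂ) / (W.card * c χ) := ⟨_, rfl⟩
  refine ⟨f, fun χ => ?_, fun χ => ?_, fun χ s hs => ?_, fun s => ?_⟩
  · rw [hf]
    simp only
    split_ifs
    · exact (continuousOn_const.add hgc).div_const _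
    · exact continuousOn_const
    · exact continuousOn_const
  · rw [hf]
    simp only
    split_ifs
    · exact ((differentiableOn_const _).add hgd).div_const _
    · exact differentiableOn_const _
    · exact differentiableOn_const _
  · rw [hf]
    simp only
    split_ifs with e e'
    · rw [e]
      refine div_ne_zero (fun h => ?_) h1
      have : (A : ℂ) = -g s := by linear_combination h
      have h' := congrArg norm this
      rw [Complex.norm_real, Real.norm_of_nonneg hA0.le, norm_neg] at h'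
      linarith [hB s hs, le_abs_self B]
    · exact one_ne_zero
    · exact div_ne_zero (neg_ne_zero.2 hA0') (mul_ne_zero hW0 e')
  · rw [← add_sum_erase _ _ (mem_univ χ₁), ← sum_filter_of_ne (p := fun χ => c χ ≠ 0)
      fun χ _ hne h0 => hne (by rw [h0, zero_mul]), ← hW]
    rw [sum_congr rfl (g := fun _ => -(A : ℂ) / W.card) fun χ hχ => ?_, sum_const, nsmul_eq_mul]
    · rw [hf]
      simp only [if_true]
      field_simp
      ring
    · rw [hW, mem_filter, mem_erase] at hχ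
      rw [hf]
      simp only [hχ.1.1, hχ.2, if_false]
      rw [mul_div_assoc', mul_comm (W.card : ℂ), mul_div_mul_left _ _ hχ.2]

/-- **Strong universality of combinations**, the phases at the primes of `q` near `1`. -/
theorem exists_comb_universal_phase {c : DirichletCharacter ℂ q → ℂ}
    {χ₁ χ₂ : DirichletCharacter ℂ q} (h12 : χ₁ ≠ χ₂) (h1 : c χ₁ ≠ 0) (h2 : c χ₂ ≠ 0) {r : ℝ}
    (hr : 0 < r) (hr4 : r < 1 / 4) {g : ℂ → ℂ} (hgc : ContinuousOn g (Metric.closedBall 0 r))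
    (hgd : DifferentiableOn ℂ g (Metric.ball 0 r)) {ε : ℝ} (hε : 0 < ε) (T₀ : ℝ) :
    ∃ C : ℝ, 0 < C ∧ ∀ᶠ T : ℝ in atTop, C * T ≤ volume.real {t ∈ Set.Icc T₀ T |
      (∀ s : ℂ, ‖s‖ ≤ r → ‖charComb c (s + 3 / 4 + t * I) - g s‖ < ε) ∧
      ∀ p ∈ q.primeFactors, ‖dmono p t - 1‖ < ε} := by
  obtain ⟨f, hfc, hfd, hf0, hsum⟩ := exists_targets_of h12 h1 h2 hgc hgd
  obtain ⟨N, hN⟩ : ∃ N, N = ∑ χ, ‖c χ‖ := ⟨_, rfl⟩
  have hN0 : 0 ≤ N := hN ▸ sum_nonneg fun χ _ => norm_nonneg _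
  obtain ⟨η, hη⟩ : ∃ η, η = ε / (N + 2) := ⟨_, rfl⟩
  have hη0 : 0 < η := hη ▸ by positivity
  have hηε : η ≤ ε := hη ▸ div_le_self hε.le (by linarith)
  obtain ⟨C, hC, hev⟩ := exists_L_universal_phase hr hr4 hfc hfd hf0 hη0 T₀
  refine ⟨C, hC, hev.mono fun T hT => hT.trans (measureReal_mono ?_
    ((measure_mono fun t ht => ht.1).trans_lt measure_Icc_lt_top).ne)⟩
  rintro t ⟨ht, htu, htp⟩
  refine ⟨ht, fun s hs => ?_, fun p hp => (htp p hp).trans_le hηε⟩
  rw [← hsum, charComb, ← sum_sub_distrib]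
  refine (norm_sum_le_of_le _ (n := fun χ => ‖c χ‖ * η) fun χ _ => ?_).trans_lt ?_
  · rw [← mul_sub, norm_mul]
    exact mul_le_mul_of_nonneg_left (htu χ s hs).le (norm_nonneg _)
  · rw [← sum_mul, ← hN, hη, mul_div_assoc', div_lt_iff₀ (by positivity)]
    nlinarith

/-- If the phases at the primes of `q` are near `1`, so is `q^(-it)`. -/
theorem exists_dmono_near {ε : ℝ} (hε : 0 < ε) :
    ∃ δ : ℝ, 0 < δ ∧ ∀ t : ℝ, (∀ p ∈ q.primeFactors, ‖dmono p t - 1‖ < δ) →
      ‖dmono q t - 1‖ < ε := by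
  obtain ⟨F, hF⟩ : ∃ F : (q.primeFactors → ℂ) → ℂ,
      F = fun u => ∏ p : q.primeFactors, u p ^ q.factorization p := ⟨_, rfl⟩
  have hFc : Continuous F := hF ▸ continuous_finsetProd _ fun p _ => (continuous_apply p).pow _
  obtain ⟨δ, hδ, hδ'⟩ := Metric.continuousAt_iff.1 (hFc.continuousAt (x := fun _ => 1)) ε hε
  refine ⟨δ, hδ, fun t ht => ?_⟩
  have h := @hδ' (fun p => dmono p t) ((dist_pi_lt_iff hδ).2 fun p => by
    rw [dist_eq_norm]; exact ht p p.2)
  have e : F (fun p => dmono p t) = dmono q t := by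
    rw [hF]
    simp only [← FA.BohrCourant.dmono_pow]
    rw [← FA.BohrCourant.dmono_prod, prod_coe_sort q.primeFactors fun p => p ^ q.factorization p]
    congr 1
    exact Nat.prod_factorization_pow_eq_self (NeZero.ne q)
  rw [e, dist_eq_norm] at h
  simpa [hF] using h

/-- **Strong universality of the Hurwitz zeta function at `b / q`.** -/
theorem exists_hurwitz_universal {a : ZMod q} (ha : IsUnit a) (hq : 3 ≤ q) {r : ℝ} (hr : 0 < r)
    (hr4 : r < 1 / 4) {f : ℂ → ℂ} (hfc : ContinuousOn f (Metric.closedBall 0 r))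
    (hfd : DifferentiableOn ℂ f (Metric.ball 0 r)) {ε : ℝ} (hε : 0 < ε) (T₀ : ℝ) :
    ∃ C : ℝ, 0 < C ∧ ∀ᶠ T : ℝ in atTop, C * T ≤ volume.real {t ∈ Set.Icc T₀ T |
      ∀ s : ℂ, ‖s‖ ≤ r → ‖hurwitzZeta (ZMod.toAddCircle a) (s + 3 / 4 + t * I) - f s‖ < ε} := by
  have hq0 : (q : ℂ) ≠ 0 := Nat.cast_ne_zero.2 (NeZero.ne q)
  have htot : (q.totient : ℂ) ≠ 0 :=
    Nat.cast_ne_zero.2 (Nat.totient_pos.2 (NeZero.pos q)).ne'
  have : Fact (2 < q) := ⟨by omega⟩
  obtain ⟨χ, hχ⟩ := DirichletCharacter.exists_apply_ne_one_of_hasEnoughRootsOfUnity ℂ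
    (n := q) (ZMod.neg_one_ne_one (n := q))
  have hu : IsUnit a⁻¹ := IsUnit.of_mul_eq_one a (ZMod.inv_mul_of_unit a ha)
  have hne : ∀ ψ : DirichletCharacter ℂ q, ψ a⁻¹ ≠ 0 := fun ψ => (hu.map ψ).ne_zero
  obtain ⟨g, hg⟩ : ∃ g : ℂ → ℂ, g = fun s => q.totient * (q : ℂ) ^ (-(s + 3 / 4)) * f s :=
    ⟨_, rfl⟩
  have hgc : ContinuousOn g (Metric.closedBall 0 r) := by
    rw [hg]
    exact ((continuous_const.mul ((continuous_id.add continuous_const).neg.const_cpow
      (Or.inl hq0))).continuousOn).mul hfc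
  have hgd : DifferentiableOn ℂ g (Metric.ball 0 r) := by
    rw [hg]
    exact (((differentiable_id.add_const _).neg.const_cpow (Or.inl hq0)).const_mul
      _).differentiableOn.mul hfd
  obtain ⟨B, hB⟩ := (isCompact_closedBall (0 : ℂ) r).exists_bound_of_continuousOn hgc
  have hB0 : 0 ≤ B := (norm_nonneg _).trans (hB 0 (Metric.mem_closedBall_self hr.le))
  obtain ⟨η, hη⟩ : ∃ η, η = ε / ((q : ℝ) * (B + 2)) := ⟨_, rfl⟩
  have hq1 : (1 : ℝ) ≤ q := Nat.one_le_cast.2 (NeZero.pos q)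
  have hη0 : 0 < η := hη ▸ by positivity
  obtain ⟨δ, hδ, hδ'⟩ := exists_dmono_near (q := q) hη0
  obtain ⟨C, hC, hev⟩ := exists_comb_universal_phase
    (c := fun ψ : DirichletCharacter ℂ q => ψ a⁻¹) (χ₁ := 1) (χ₂ := χ)
    (fun h => hχ (by rw [← h, MulChar.one_apply isUnit_one.neg])) (hne 1) (hne χ) hr hr4 hgc hgd
    (lt_min hη0 hδ) T₀
  refine ⟨C, hC, hev.mono fun T hT => hT.trans (measureReal_mono ?_
    ((measure_mono fun t ht => ht.1).trans_lt measure_Icc_lt_top).ne)⟩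
  rintro t ⟨ht, htu, htp⟩
  refine ⟨ht, fun s hs => ?_⟩
  obtain ⟨u, hu⟩ : ∃ u : ℂ, u = dmono q t := ⟨_, rfl⟩
  have hu1 : ‖u - 1‖ < η := hu ▸ hδ' t fun p hp => (htp p hp).trans_le (min_le_right _ _)
  have hun : ‖u‖ = 1 := hu ▸ FA.BohrCourant.norm_dmono (NeZero.pos q) t
  have hc := (htu s hs).trans_le (min_le_left _ _)
  obtain ⟨X, hX⟩ : ∃ X, X = charComb (fun ψ : DirichletCharacter ℂ q => ψ a⁻¹)
      (s + 3 / 4 + t * I) := ⟨_, rfl⟩
  rw [← hX] at hc
  obtain ⟨P, hP⟩ : ∃ P : ℂ, P = (q : ℂ) ^ (s + 3 / 4) := ⟨_, rfl⟩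
  have hP0 : P ≠ 0 := hP ▸ fun h => hq0 (Complex.cpow_eq_zero_iff _ _ |>.1 h).1
  have hu0 : u ≠ 0 := norm_pos_iff.1 (by rw [hun]; exact one_pos)
  have hw : hurwitzZeta (ZMod.toAddCircle a) (s + 3 / 4 + t * I) - f s =
      P / q.totient / u * ((X - g s) - (u - 1) * g s) := by
    have hf : f s = P / q.totient * g s := by
      rw [hg]
      simp only [Complex.cpow_neg, ← hP]
      field_simp
    have hqt : (q : ℂ) ^ ((t : ℂ) * I) = u⁻¹ := by
      rw [hu, dmono, ← Complex.cpow_neg, neg_neg, mul_comm]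
    rw [hurwitzZeta_eq_charComb ha, ← hX, hf, Complex.cpow_add _ _ hq0, ← hP, hqt]
    field_simp
    ring
  have hPle : ‖P / q.totient / u‖ ≤ q := by
    rw [norm_div, norm_div, hun, div_one, hP, Complex.norm_natCast_cpow_of_pos (NeZero.pos q),
      Complex.norm_natCast]
    refine div_le_of_le_mul₀ (by positivity) (by positivity) ?_
    calc (q : ℝ) ^ (s + 3 / 4).re ≤ (q : ℝ) ^ (1 : ℝ) := by
          refine Real.rpow_le_rpow_of_exponent_le hq1 ?_
          simp only [Complex.add_re, Complex.div_ofNat_re, Complex.re_ofNat]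
          linarith [(abs_le.1 ((Complex.abs_re_le_norm s).trans hs)).2]
      _ ≤ (q : ℝ) * q.totient := by
          rw [Real.rpow_one]
          exact le_mul_of_one_le_right (by positivity)
            (Nat.one_le_cast.2 (Nat.totient_pos.2 (NeZero.pos q)))
  rw [hw, norm_mul]
  calc ‖P / q.totient / u‖ * ‖(X - g s) - (u - 1) * g s‖
      ≤ (q : ℝ) * (η + η * B) := by
        refine mul_le_mul hPle ((norm_sub_le _ _).trans (add_le_add hc.le ?_)) (norm_nonneg _)
          (by positivity)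
        rw [norm_mul]
        exact mul_le_mul hu1.le (hB s (by simpa using hs)) (norm_nonneg _) hη0.le
    _ < ε := by
        have e : η * ((q : ℝ) * (B + 2)) = ε := hη ▸ div_mul_cancel₀ _ (by positivity)
        nlinarith [mul_pos hη0 (lt_of_lt_of_le one_pos hq1)]

end FA.Joint
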